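import Mathlib

/-!
# S58 / HW: two field-theoretic lemmas

* `isAlgebraic_of_exchange` : the exchange lemma for algebraic dependence in the form used for
  function fields of curves: a nonzero bivariate relation `G(x, z) = 0` with `z` transcendental
  makes `x` algebraic over any intermediate field containing `z`.
* `isSeparable_of_mem_adjoin_pow` : a finite extension `E = F(S)` of exponential characteristic
  `q` with `S ⊆ F(S ^ q)` is separable (the converse of Mathlib's
  `IntermediateField.adjoin_eq_adjoin_pow_expChar_of_isSeparable`).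
-/

set_option autoImplicit false

namespace Fermat.Agent.S58.HW.FieldAux

open Polynomial IntermediateField
open scoped Polynomial.Bivariate

section Exchange

variable {F E : Type*} [Field F] [Field E] [Algebra F E]

/-- evaluation of a swapped bivariate polynomial -/
theorem eval₂_swap (x z : E) (G : F[X][Y]) :
    (Bivariate.swap G).eval₂ ((aeval z : F[X] →ₐ[F] E) : F[X] →+* E) x =
      G.eval₂ ((aeval x : F[X] →ₐ[F] E) : F[X] →+* E) z := by
  have h : (eval₂RingHom ((aeval z : F[X] →ₐ[F] E) : F[X] →+* E) x).comp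
      ((Bivariate.swap (R := F) : F[X][Y] ≃ₐ[F] F[X][Y]) : F[X][Y] →+* F[X][Y]) =
      eval₂RingHom ((aeval x : F[X] →ₐ[F] E) : F[X] →+* E) z := by
    refine Polynomial.ringHom_ext (fun a => ?_) ?_
    · have h' : ((eval₂RingHom ((aeval z : F[X] →ₐ[F] E) : F[X] →+* E) x).comp
          ((Bivariate.swap (R := F) : F[X][Y] ≃ₐ[F] F[X][Y]) : F[X][Y] →+* F[X][Y])).comp C =
          (eval₂RingHom ((aeval x : F[X] →ₐ[F] E) : F[X] →+* E) z).comp C := by
        refine Polynomial.ringHom_ext (fun c => ?_) ?_
        · simp [Bivariate.swap_C_C]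
        · simp [Bivariate.swap_X]
      exact RingHom.congr_fun h' a
    · simp [Bivariate.swap_Y]
  exact RingHom.congr_fun h G

/-- **Exchange lemma.** -/
theorem isAlgebraic_of_exchange {x z : E} (hz : Transcendental F z) {G : F[X][Y]} (hG : G ≠ 0)
    (hGz : G.eval₂ ((aeval x : F[X] →ₐ[F] E) : F[X] →+* E) z = 0) (M : IntermediateField F E)
    (hzM : z ∈ M) : IsAlgebraic M x := by
  have hzM' : Transcendental F (⟨z, hzM⟩ : M) :=
    (transcendental_algebraMap_iff (R := F) (S := M) (A := E) (algebraMap M E).injective).mp hz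
  have hinj : Function.Injective ((aeval (⟨z, hzM⟩ : M) : F[X] →ₐ[F] M) : F[X] →+* M) :=
    transcendental_iff_injective.mp hzM'
  refine ⟨(Bivariate.swap G).map ((aeval (⟨z, hzM⟩ : M) : F[X] →ₐ[F] M) : F[X] →+* M), ?_, ?_⟩
  · rw [Ne, Polynomial.map_eq_zero_iff hinj]
    exact fun h => hG ((Bivariate.swap (R := F)).injective (by rw [h, map_zero]))
  · rw [aeval_def, eval₂_map]
    have hcomp : (algebraMap M E).comp ((aeval (⟨z, hzM⟩ : M) : F[X] →ₐ[F] M) : F[X] →+* M) =
        ((aeval z : F[X] →ₐ[F] E) : F[X] →+* E) := by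
      refine Polynomial.ringHom_ext (fun c => ?_) ?_
      · simp only [RingHom.comp_apply, RingHom.coe_coe, aeval_C]
        rfl
      · simp only [RingHom.comp_apply, RingHom.coe_coe, aeval_X]
        rfl
    rw [hcomp, eval₂_swap, hGz]

end Exchange

section Separable

variable {F E : Type*} [Field F] [Field E] [Algebra F E] (q : ℕ) [hF : ExpChar F q]

/-- the intermediate field of the elements whose `q`-th power lies in a given intermediate
field -/
def comapFrob (M : IntermediateField F E) : IntermediateField F E :=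
  haveI := expChar_of_injective_algebraMap (algebraMap F E).injective q
  { carrier := {a | a ^ q ∈ M}
    mul_mem' := fun {a b} ha hb => by
      simp only [Set.mem_ofPred_eq] at ha hb ⊢
      rw [mul_pow]; exact M.mul_mem ha hb
    add_mem' := fun {a b} ha hb => by
      simp only [Set.mem_ofPred_eq] at ha hb ⊢
      rw [add_pow_expChar]; exact M.add_mem ha hb
    algebraMap_mem' := fun c => by
      simp only [Set.mem_ofPred_eq]
      rw [← map_pow]; exact M.algebraMap_mem _
    inv_mem' := fun a ha => by
      simp only [Set.mem_ofPred_eq] at ha ⊢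
      rw [inv_pow]; exact M.inv_mem ha }

theorem mem_comapFrob {M : IntermediateField F E} {a : E} : a ∈ comapFrob q M ↔ a ^ q ∈ M :=
  Iff.rfl

/-- `a ∈ F(T) ⟹ a ^ q ∈ F(T ^ q)` -/
theorem pow_mem_adjoin_pow {T : Set E} {a : E} (ha : a ∈ adjoin F T) :
    a ^ q ∈ adjoin F ((· ^ q) '' T) := by
  have hle : adjoin F T ≤ comapFrob q (adjoin F ((· ^ q) '' T)) :=
    adjoin_le_iff.mpr fun t ht => (mem_comapFrob q).mpr (subset_adjoin F _ ⟨t, ht, rfl⟩)
  exact (mem_comapFrob q).mp (hle ha)

/-- iterating: `S ⊆ F(S ^ q) ⟹ S ⊆ F(S ^ (q ^ n))` -/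
theorem subset_adjoin_pow_pow {S : Set E} (hS : ∀ s ∈ S, s ∈ adjoin F ((· ^ q) '' S)) (n : ℕ) :
    ∀ s ∈ S, s ∈ adjoin F ((· ^ q ^ n) '' S) := by
  induction n with
  | zero =>
    intro s hs
    exact subset_adjoin F _ ⟨s, hs, by simp⟩
  | succ n ih =>
    intro s hs
    have hle : adjoin F ((· ^ q) '' S) ≤ adjoin F ((· ^ q ^ (n + 1)) '' S) := by
      refine adjoin_le_iff.mpr ?_
      rintro _ ⟨t, ht, rfl⟩
      have h1 := pow_mem_adjoin_pow q (ih t ht)
      have h2 : (· ^ q) '' ((· ^ q ^ n) '' S) = (· ^ q ^ (n + 1)) '' S := by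
        rw [Set.image_image]
        congr 1
        funext u
        rw [← pow_mul, pow_succ]
      rw [h2] at h1
      exact h1
    exact hle (hS s hs)

/-- **Separability criterion**: a finite extension `E = F(S)` with `S ⊆ F(S ^ q)`, `S` finite, is
separable. -/
theorem isSeparable_of_mem_adjoin_pow [FiniteDimensional F E] {S : Set E} (hfin : S.Finite)
    (htop : adjoin F S = ⊤) (hS : ∀ s ∈ S, s ∈ adjoin F ((· ^ q) '' S)) :
    Algebra.IsSeparable F E := by
  rw [← separableClosure.eq_top_iff, eq_top_iff, ← htop, adjoin_le_iff]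
  have : IsPurelyInseparable (separableClosure F E) E := separableClosure.isPurelyInseparable F E
  have : ExpChar (separableClosure F E) q :=
    expChar_of_injective_algebraMap (algebraMap F (separableClosure F E)).injective q
  -- a common exponent
  have hexT : ∀ T : Finset E, ∃ n, ∀ s ∈ T, s ^ q ^ n ∈ separableClosure F E := by
    classical
    intro T
    induction T using Finset.induction_on with
    | empty => exact ⟨0, by simp⟩
    | insert a T _ ih =>
      obtain ⟨n, hn⟩ := ih
      obtain ⟨m, y, hy⟩ := IsPurelyInseparable.pow_mem (separableClosure F E) q a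
      refine ⟨n + m, ?_⟩
      intro s hs
      rcases Finset.mem_insert.mp hs with rfl | hs
      · rw [add_comm, pow_add, pow_mul, ← hy]
        exact pow_mem y.2 _
      · rw [pow_add, pow_mul]
        exact pow_mem (hn s hs) _
  have hex : ∃ n, ∀ s ∈ S, s ^ q ^ n ∈ separableClosure F E := by
    obtain ⟨n, hn⟩ := hexT hfin.toFinset
    exact ⟨n, fun s hs => hn s (hfin.mem_toFinset.mpr hs)⟩
  obtain ⟨n, hn⟩ := hex
  intro s hs
  have h1 := subset_adjoin_pow_pow q hS n s hs
  have hle : adjoin F ((· ^ q ^ n) '' S) ≤ separableClosure F E := by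
    refine adjoin_le_iff.mpr ?_
    rintro _ ⟨t, ht, rfl⟩
    exact hn t ht
  exact hle h1

end Separable

end Fermat.Agent.S58.HW.FieldAux
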