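import Mathlib

/-!
# S58 / HW: field embeddings of the function field of an elliptic curve from points

`W'` a Weierstrass curve over a ring `R`, `k` a field over `R` over which `W'` is elliptic,
`K := (W'⁄k).FunctionField`.

* `genericPoint W' k : (W'⁄K).Point` — the point `(x, y)`;
* `evalAt` — the `k`-algebra hom `k[W] → L` attached to a solution `(x₀, y₀)` in a field `L/k`,
  injective when `x₀` is transcendental over `k` (`evalAt_injective`);
* `embOf` — the induced `k`-embedding `K → L`, with `map_embOf_genericPoint`;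
* `algHom_ext_of_genericPoint` — a `k`-algebra hom out of `K` is determined by the image of the
  generic point.
-/

set_option autoImplicit false
set_option linter.unusedSectionVars false

namespace Fermat.Agent.S58.HW.PointEmb

open WeierstrassCurve WeierstrassCurve.Affine Polynomial
open scoped Polynomial.Bivariate

noncomputable section

variable {R : Type*} [CommRing R] (W' : Affine R) (k : Type*) [Field k] [Algebra R k]

/-- base changes of elliptic curves are elliptic (`baseChange` is a `def`, so the instance for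
`map` does not fire) -/
instance isElliptic_baseChange (A : Type*) [CommRing A] [Algebra R A] [W'.IsElliptic] :
    (W'⁄A).IsElliptic :=
  inferInstanceAs (WeierstrassCurve.map W' (algebraMap R A)).IsElliptic

/-- the function field of `W'` over `k` -/
abbrev KK : Type _ := (W'⁄k).FunctionField

/-- the coordinate function `x` -/
def xK : KK W' k := algebraMap (W'⁄k).CoordinateRing (KK W' k) (CoordinateRing.mk (W'⁄k) (C X))

/-- the coordinate function `y` -/
def yK : KK W' k := algebraMap (W'⁄k).CoordinateRing (KK W' k) (CoordinateRing.mk (W'⁄k) Y)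

section Eval

variable {W' k}
variable {L : Type*} [Field L] [Algebra R L] [Algebra k L] [IsScalarTower R k L]

/-- the equation over `L` in terms of the polynomial over `k` -/
theorem equation_iff_eval₂ (x₀ y₀ : L) :
    (W'⁄L).Equation x₀ y₀ ↔
      (W'⁄k).polynomial.eval₂ ((aeval x₀ : k[X] →ₐ[k] L) : k[X] →+* L) y₀ = 0 := by
  have h1 : ((aeval x₀ : k[X] →ₐ[k] L) : k[X] →+* L) = eval₂RingHom (algebraMap k L) x₀ := by
    ext <;> simp
  rw [h1, eval₂_eval₂RingHom_apply, Equation,
    baseChange_polynomial W' (IsScalarTower.toAlgHom R k L)]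
  rfl

/-- evaluation of the coordinate ring at a solution `(x₀, y₀)` in `L` -/
def evalAt (x₀ y₀ : L) (h : (W'⁄L).Equation x₀ y₀) : (W'⁄k).CoordinateRing →ₐ[k] L :=
  AdjoinRoot.liftAlgHom (W'⁄k).polynomial (aeval x₀ : k[X] →ₐ[k] L) y₀
    ((equation_iff_eval₂ x₀ y₀).mp h)

@[simp]
theorem evalAt_mk (x₀ y₀ : L) (h : (W'⁄L).Equation x₀ y₀) (p : k[X][Y]) :
    evalAt x₀ y₀ h (CoordinateRing.mk (W'⁄k) p) =
      p.eval₂ ((aeval x₀ : k[X] →ₐ[k] L) : k[X] →+* L) y₀ :=
  AdjoinRoot.liftAlgHom_mk _ _ _ _ _

theorem evalAt_X (x₀ y₀ : L) (h : (W'⁄L).Equation x₀ y₀) :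
    evalAt x₀ y₀ h (CoordinateRing.mk (W'⁄k) (C X)) = x₀ := by
  rw [evalAt_mk, eval₂_C, RingHom.coe_coe, aeval_X]

theorem evalAt_Y (x₀ y₀ : L) (h : (W'⁄L).Equation x₀ y₀) :
    evalAt x₀ y₀ h (CoordinateRing.mk (W'⁄k) Y) = y₀ := by
  rw [evalAt_mk, eval₂_X]

theorem evalAt_algebraMap (x₀ y₀ : L) (h : (W'⁄L).Equation x₀ y₀) (p : k[X]) :
    evalAt x₀ y₀ h (algebraMap k[X] (W'⁄k).CoordinateRing p) = aeval x₀ p := by
  change evalAt x₀ y₀ h (CoordinateRing.mk (W'⁄k) (C p)) = _
  rw [evalAt_mk, eval₂_C, RingHom.coe_coe]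

/-- **injectivity** of the evaluation at a point with transcendental `x`-coordinate -/
theorem evalAt_injective (x₀ y₀ : L) (h : (W'⁄L).Equation x₀ y₀) (hx : Transcendental k x₀) :
    Function.Injective (evalAt (W' := W') (k := k) x₀ y₀ h) := by
  rw [injective_iff_map_eq_zero]
  intro z hz
  obtain ⟨p, q, rfl⟩ := CoordinateRing.exists_smul_basis_eq z
  have hn := CoordinateRing.coe_norm_smul_basis (W' := W'⁄k) p q
  -- the norm is a multiple of `z`
  have hz' : evalAt x₀ y₀ h (algebraMap k[X] (W'⁄k).CoordinateRing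
      (Algebra.norm k[X] (p • (1 : (W'⁄k).CoordinateRing) + q • CoordinateRing.mk (W'⁄k) Y))) = 0 := by
    rw [AdjoinRoot.algebraMap_eq, hn, map_mul, map_mul]
    have : CoordinateRing.mk (W'⁄k) (C p + C q * X) =
        p • (1 : (W'⁄k).CoordinateRing) + q • CoordinateRing.mk (W'⁄k) Y := by
      simp only [CoordinateRing.smul, map_add, map_mul, mul_one]
    rw [this, hz, zero_mul]
  rw [evalAt_algebraMap] at hz'
  have hN : Algebra.norm k[X] (p • (1 : (W'⁄k).CoordinateRing) +
      q • CoordinateRing.mk (W'⁄k) Y) = 0 := by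
    by_contra hne
    exact hx ⟨_, hne, hz'⟩
  have : Module.Finite k[X] (W'⁄k).CoordinateRing := Module.Finite.of_basis (CoordinateRing.basis _)
  exact Algebra.norm_eq_zero_iff.mp hN

/-- the `k`-embedding `K → L` attached to a solution with transcendental `x`-coordinate -/
def embOf (x₀ y₀ : L) (h : (W'⁄L).Equation x₀ y₀) (hx : Transcendental k x₀) :
    KK W' k →ₐ[k] L :=
  IsFractionRing.liftAlgHom (g := evalAt x₀ y₀ h) (evalAt_injective x₀ y₀ h hx)

theorem embOf_xK (x₀ y₀ : L) (h : (W'⁄L).Equation x₀ y₀) (hx : Transcendental k x₀) :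
    embOf x₀ y₀ h hx (xK W' k) = x₀ := by
  rw [embOf, xK, IsFractionRing.liftAlgHom_apply, IsFractionRing.lift_algebraMap]
  exact evalAt_X x₀ y₀ h

theorem embOf_yK (x₀ y₀ : L) (h : (W'⁄L).Equation x₀ y₀) (hx : Transcendental k x₀) :
    embOf x₀ y₀ h hx (yK W' k) = y₀ := by
  rw [embOf, yK, IsFractionRing.liftAlgHom_apply, IsFractionRing.lift_algebraMap]
  exact evalAt_Y x₀ y₀ h

/-- a `k`-algebra hom out of the function field is determined by its values at `x` and `y` -/
theorem algHom_ext_of_xy {f g : KK W' k →ₐ[k] L} (hx : f (xK W' k) = g (xK W' k))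
    (hy : f (yK W' k) = g (yK W' k)) : f = g := by
  have hconst : ∀ c : k, algebraMap (W'⁄k).CoordinateRing (KK W' k)
      (CoordinateRing.mk (W'⁄k) (C (C c))) = algebraMap k (KK W' k) c := by
    intro c
    rw [IsScalarTower.algebraMap_apply k (W'⁄k).CoordinateRing (KK W' k)]
    rfl
  have h1 : ((f : KK W' k →+* L).comp ((algebraMap (W'⁄k).CoordinateRing (KK W' k)).comp
      ((CoordinateRing.mk (W'⁄k)).comp C))) = ((g : KK W' k →+* L).comp
        ((algebraMap (W'⁄k).CoordinateRing (KK W' k)).comp ((CoordinateRing.mk (W'⁄k)).comp C))) := by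
    refine Polynomial.ringHom_ext (fun c => ?_) ?_
    · simp only [RingHom.comp_apply, RingHom.coe_coe]
      rw [hconst, AlgHom.commutes, AlgHom.commutes]
    · simp only [RingHom.comp_apply, RingHom.coe_coe]
      exact hx
  have h2 : ((f : KK W' k →+* L).comp ((algebraMap (W'⁄k).CoordinateRing (KK W' k)).comp
      (CoordinateRing.mk (W'⁄k)))) = ((g : KK W' k →+* L).comp
        ((algebraMap (W'⁄k).CoordinateRing (KK W' k)).comp (CoordinateRing.mk (W'⁄k)))) := by
    refine Polynomial.ringHom_ext (fun a => ?_) ?_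
    · exact RingHom.congr_fun h1 a
    · simp only [RingHom.comp_apply, RingHom.coe_coe]
      exact hy
  apply AlgHom.coe_ringHom_injective
  refine IsLocalization.ringHom_ext (nonZeroDivisors (W'⁄k).CoordinateRing) ?_
  exact Ideal.Quotient.ringHom_ext h2

end Eval

section Generic

variable {W' k}

theorem algebraMap_mk_CC (c : k) : algebraMap (W'⁄k).CoordinateRing (KK W' k)
    (CoordinateRing.mk (W'⁄k) (C (C c))) = algebraMap k (KK W' k) c := by
  rw [IsScalarTower.algebraMap_apply k (W'⁄k).CoordinateRing (KK W' k)]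
  rfl

/-- `aeval x` on `k[X]` is the structure map -/
theorem aeval_xK (a : k[X]) : aeval (xK W' k) a =
    algebraMap (W'⁄k).CoordinateRing (KK W' k) (CoordinateRing.mk (W'⁄k) (C a)) := by
  have h : ((aeval (xK W' k) : k[X] →ₐ[k] KK W' k) : k[X] →+* KK W' k) =
      (algebraMap (W'⁄k).CoordinateRing (KK W' k)).comp ((CoordinateRing.mk (W'⁄k)).comp C) := by
    refine Polynomial.ringHom_ext (fun c => ?_) ?_
    · simp only [RingHom.comp_apply, RingHom.coe_coe, aeval_C]
      rw [algebraMap_mk_CC]
    · simp only [RingHom.comp_apply, RingHom.coe_coe, aeval_X]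
      rfl
  exact RingHom.congr_fun h a

/-- evaluation of a bivariate polynomial at the generic point is the structure map -/
theorem eval₂_generic (p : k[X][Y]) :
    p.eval₂ ((aeval (xK W' k) : k[X] →ₐ[k] KK W' k) : k[X] →+* KK W' k) (yK W' k) =
      algebraMap (W'⁄k).CoordinateRing (KK W' k) (CoordinateRing.mk (W'⁄k) p) := by
  have h : eval₂RingHom ((aeval (xK W' k) : k[X] →ₐ[k] KK W' k) : k[X] →+* KK W' k) (yK W' k) =
      (algebraMap (W'⁄k).CoordinateRing (KK W' k)).comp (CoordinateRing.mk (W'⁄k)) := by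
    refine Polynomial.ringHom_ext (fun a => ?_) ?_
    · simp only [RingHom.comp_apply, coe_eval₂RingHom, eval₂_C, RingHom.coe_coe]
      exact aeval_xK a
    · simp only [RingHom.comp_apply, coe_eval₂RingHom, eval₂_X]
      rfl
  exact RingHom.congr_fun h p

theorem transcendental_xK : Transcendental k (xK W' k) := by
  rintro ⟨P, hP0, hP⟩
  rw [aeval_xK] at hP
  have h1 : CoordinateRing.mk (W'⁄k) (C P) = 0 :=
    IsFractionRing.injective (W'⁄k).CoordinateRing (KK W' k) (by rw [hP, map_zero])
  have h2 : algebraMap k[X] (W'⁄k).CoordinateRing P = 0 := h1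
  exact hP0 (FaithfulSMul.algebraMap_injective k[X] (W'⁄k).CoordinateRing (by rw [h2, map_zero]))

theorem equation_generic : (W'⁄(KK W' k)).Equation (xK W' k) (yK W' k) := by
  rw [equation_iff_eval₂ (k := k), eval₂_generic, AdjoinRoot.mk_self, map_zero]

variable [W'.IsElliptic]

variable (W' k) in
/-- the generic point `(x, y)` of `E(K)` -/
def genericPoint : (W'⁄(KK W' k)).Point :=
  .some (xK W' k) (yK W' k) (equation_iff_nonsingular.mp equation_generic)

variable {L : Type*} [Field L] [DecidableEq L] [Algebra R L] [Algebra k L] [IsScalarTower R k L]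

theorem map_embOf_genericPoint (x₀ y₀ : L) (h : (W'⁄L).Nonsingular x₀ y₀)
    (hx : Transcendental k x₀) :
    Point.map (W' := W') (embOf x₀ y₀ h.left hx) (genericPoint W' k) = .some x₀ y₀ h := by
  rw [genericPoint, Point.map_some]
  congr 1
  · exact embOf_xK x₀ y₀ h.left hx
  · exact embOf_yK x₀ y₀ h.left hx

/-- a `k`-algebra hom out of the function field is determined by the image of the generic point -/
theorem algHom_ext_of_genericPoint {f g : KK W' k →ₐ[k] L}
    (h : Point.map (W' := W') f (genericPoint W' k) = Point.map (W' := W') g (genericPoint W' k)) :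
    f = g := by
  rw [genericPoint, Point.map_some, Point.map_some] at h
  injection h with h1 h2
  exact algHom_ext_of_xy h1 h2

end Generic

section Const

variable {W' k} [W'.IsElliptic] [IsAlgClosed k] [DecidableEq k]
variable {L : Type*} [Field L] [DecidableEq L] [Algebra R L] [Algebra k L] [IsScalarTower R k L]

/-- a point of `E(L)` is constant if it comes from `E(k)` -/
def IsConst (Q : (W'⁄L).Point) : Prop := Q ∈ (Point.baseChange (W' := W') k L).range

theorem isConst_zero : IsConst (W' := W') (k := k) (0 : (W'⁄L).Point) := zero_mem _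

theorem isConst_baseChange (T : (W'⁄k).Point) :
    IsConst (W' := W') (k := k) (Point.baseChange (W' := W') k L T) := ⟨T, rfl⟩

theorem IsConst.add {P Q : (W'⁄L).Point} (hP : IsConst (W' := W') (k := k) P)
    (hQ : IsConst (W' := W') (k := k) Q) : IsConst (W' := W') (k := k) (P + Q) := add_mem hP hQ

theorem IsConst.neg {P : (W'⁄L).Point} (hP : IsConst (W' := W') (k := k) P) :
    IsConst (W' := W') (k := k) (-P) := neg_mem hP

theorem IsConst.sub {P Q : (W'⁄L).Point} (hP : IsConst (W' := W') (k := k) P)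
    (hQ : IsConst (W' := W') (k := k) Q) : IsConst (W' := W') (k := k) (P - Q) := sub_mem hP hQ

theorem mem_range_of_isAlgebraic {z : L} (hz : IsAlgebraic k z) : z ∈ (algebraMap k L).range := by
  have hint : IsIntegral k z := hz.isIntegral
  have hirr := minpoly.irreducible hint
  exact minpoly.mem_range_of_degree_eq_one k z (IsAlgClosed.degree_eq_one_of_irreducible k hirr)

/-- an affine point whose `x`-coordinate is algebraic over `k` is constant -/
theorem isConst_of_isAlgebraic {x₀ y₀ : L} (h : (W'⁄L).Nonsingular x₀ y₀)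
    (hx : IsAlgebraic k x₀) : IsConst (W' := W') (k := k) (Point.some x₀ y₀ h) := by
  obtain ⟨a, rfl⟩ := mem_range_of_isAlgebraic hx
  -- `y₀` is a root of a monic quadratic over `k`
  have hy : IsAlgebraic k y₀ := by
    have heq := (equation_iff _ _).mp h.left
    have e1 : algebraMap k L (W'⁄k).a₁ = (W'⁄L).a₁ := by
      rw [baseChange_a₁, baseChange_a₁]; exact (IsScalarTower.algebraMap_apply R k L _).symm
    have e2 : algebraMap k L (W'⁄k).a₂ = (W'⁄L).a₂ := by
      rw [baseChange_a₂, baseChange_a₂]; exact (IsScalarTower.algebraMap_apply R k L _).symm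
    have e3 : algebraMap k L (W'⁄k).a₃ = (W'⁄L).a₃ := by
      rw [baseChange_a₃, baseChange_a₃]; exact (IsScalarTower.algebraMap_apply R k L _).symm
    have e4 : algebraMap k L (W'⁄k).a₄ = (W'⁄L).a₄ := by
      rw [baseChange_a₄, baseChange_a₄]; exact (IsScalarTower.algebraMap_apply R k L _).symm
    have e6 : algebraMap k L (W'⁄k).a₆ = (W'⁄L).a₆ := by
      rw [baseChange_a₆, baseChange_a₆]; exact (IsScalarTower.algebraMap_apply R k L _).symm
    refine IsIntegral.isAlgebraic ⟨X ^ 2 + (C ((W'⁄k).a₁ * a + (W'⁄k).a₃) * X -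
      C (a ^ 3 + (W'⁄k).a₂ * a ^ 2 + (W'⁄k).a₄ * a + (W'⁄k).a₆)), ?_, ?_⟩
    · apply monic_X_pow_add
      calc degree (C ((W'⁄k).a₁ * a + (W'⁄k).a₃) * X -
            C (a ^ 3 + (W'⁄k).a₂ * a ^ 2 + (W'⁄k).a₄ * a + (W'⁄k).a₆) : k[X])
          ≤ max (degree (C ((W'⁄k).a₁ * a + (W'⁄k).a₃) * X : k[X]))
              (degree (C (a ^ 3 + (W'⁄k).a₂ * a ^ 2 + (W'⁄k).a₄ * a + (W'⁄k).a₆) : k[X])) :=
            degree_sub_le _ _
        _ ≤ 1 := max_le (degree_C_mul_X_le _) (degree_C_le.trans zero_le_one)
        _ < ((2 : ℕ) : WithBot ℕ) := by exact_mod_cast one_lt_two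
    · simp only [eval₂_add, eval₂_sub, eval₂_mul, eval₂_pow, eval₂_X, eval₂_C, map_add, map_mul,
        map_pow, e1, e2, e3, e4, e6]
      linear_combination heq
  obtain ⟨b, rfl⟩ := mem_range_of_isAlgebraic hy
  have h' : (W'⁄k).Nonsingular a b :=
    (baseChange_nonsingular W' (f := Algebra.ofId k L) (Algebra.ofId k L).injective a b).mp h
  exact ⟨.some a b h', rfl⟩

/-- the `x`-coordinate of a non-constant affine point is transcendental over `k` -/
theorem transcendental_of_not_isConst {x₀ y₀ : L} (h : (W'⁄L).Nonsingular x₀ y₀)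
    (hQ : ¬ IsConst (W' := W') (k := k) (Point.some x₀ y₀ h)) : Transcendental k x₀ :=
  fun hx => hQ (isConst_of_isAlgebraic h hx)

/-- every non-constant point of `E(L)` is the image of the generic point under a `k`-embedding -/
theorem exists_emb_of_not_isConst (Q : (W'⁄L).Point) (hQ : ¬ IsConst (W' := W') (k := k) Q) :
    ∃ θ : KK W' k →ₐ[k] L, Point.map (W' := W') θ (genericPoint W' k) = Q := by
  rcases Q with _ | ⟨x₀, y₀, h⟩
  · exact absurd isConst_zero hQ
  · exact ⟨embOf x₀ y₀ h.left (transcendental_of_not_isConst h hQ),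
      map_embOf_genericPoint x₀ y₀ h _⟩

/-- the embedding attached to a non-constant point -/
def emb (Q : (W'⁄L).Point) (hQ : ¬ IsConst (W' := W') (k := k) Q) : KK W' k →ₐ[k] L :=
  (exists_emb_of_not_isConst Q hQ).choose

theorem map_emb (Q : (W'⁄L).Point) (hQ : ¬ IsConst (W' := W') (k := k) Q) :
    Point.map (W' := W') (emb Q hQ) (genericPoint W' k) = Q :=
  (exists_emb_of_not_isConst Q hQ).choose_spec

/-- the generic point is not constant -/
theorem not_isConst_genericPoint :
    ¬ IsConst (W' := W') (k := k) (genericPoint W' k) := by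
  rintro ⟨T, hT⟩
  rcases T with _ | ⟨a, b, h⟩
  · exact Point.some_ne_zero _ hT.symm
  · rw [genericPoint, Point.baseChange, Point.map_some] at hT
    injection hT with h1 h2
    exact transcendental_xK (W' := W') (k := k) (h1 ▸ isAlgebraic_algebraMap a)

theorem not_isConst_add_const {Q : (W'⁄L).Point} (hQ : ¬ IsConst (W' := W') (k := k) Q)
    (T : (W'⁄k).Point) :
    ¬ IsConst (W' := W') (k := k) (Q + Point.baseChange (W' := W') k L T) := by
  intro h
  apply hQ
  have := h.sub (isConst_baseChange (W' := W') (k := k) (L := L) T)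
  rwa [add_sub_cancel_right] at this

/-! ### Translations -/

/-- the translation by a constant point `T`, as a `k`-endomorphism of the function field -/
def tau (T : (W'⁄k).Point) : KK W' k →ₐ[k] KK W' k :=
  emb (genericPoint W' k + Point.baseChange (W' := W') k (KK W' k) T)
    (not_isConst_add_const not_isConst_genericPoint T)

theorem map_tau (T : (W'⁄k).Point) :
    Point.map (W' := W') (tau T) (genericPoint W' k) =
      genericPoint W' k + Point.baseChange (W' := W') k (KK W' k) T :=
  map_emb _ _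

theorem tau_comp (S T : (W'⁄k).Point) : (tau (W' := W') S).comp (tau T) = tau (S + T) := by
  apply algHom_ext_of_genericPoint
  rw [← Point.map_map, map_tau, map_add, map_tau, map_tau, Point.map_baseChange, map_add]
  abel

theorem tau_zero : tau (W' := W') (k := k) 0 = AlgHom.id k _ := by
  apply algHom_ext_of_genericPoint
  rw [map_tau, map_zero, add_zero]
  cases genericPoint W' k <;> rfl

/-- the translation by `T` as an automorphism of the function field -/
def tauEquiv (T : (W'⁄k).Point) : KK W' k ≃ₐ[k] KK W' k :=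
  AlgEquiv.ofAlgHom (tau T) (tau (-T))
    (by rw [tau_comp, add_neg_cancel, tau_zero]) (by rw [tau_comp, neg_add_cancel, tau_zero])

@[simp]
theorem coe_tauEquiv (T : (W'⁄k).Point) : (tauEquiv (W' := W') T : KK W' k →ₐ[k] KK W' k) = tau T :=
  rfl

end Const



end

end Fermat.Agent.S58.HW.PointEmb
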