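import Mathlib
import Fermat.Agent.S58.HW.PointEmb
import Fermat.Agent.S58.HW.FieldAux

/-!
# S58 / HW: `[K : θ_w K] = #E(𝔽_ℓ)` for `w = P₀ - φ P₀`

`W'` an elliptic curve over `ZMod ℓ`, `k` an algebraically closed field over `ZMod ℓ`,
`K = k(E)`, `P₀` the generic point, `φ` the Frobenius endomorphism of `E(L)` (`L/ZMod ℓ` any
field), `w := P₀ - φ P₀ ∈ E(K)`, `θ_w : K → K` the `k`-embedding with `θ_w P₀ = w`.
Main result: `finrank_fieldRange_emb_w : finrank (θ_w K) K = #W'.Point`.
-/

set_option autoImplicit false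
set_option linter.unusedSectionVars false

namespace Fermat.Agent.S58.HW.OneSubFrob

open WeierstrassCurve WeierstrassCurve.Affine Polynomial
open Fermat.Agent.S58.HW.PointEmb Fermat.Agent.S58.HW.FieldAux
open scoped Polynomial.Bivariate

noncomputable section

variable {ℓ : ℕ} [Fact ℓ.Prime] (W' : Affine (ZMod ℓ))

section Frob

variable (L : Type*) [Field L] [Algebra (ZMod ℓ) L]

theorem charP_of_algebra : CharP L ℓ :=
  charP_of_injective_algebraMap (algebraMap (ZMod ℓ) L).injective ℓ

/-- the Frobenius `a ↦ a ^ ℓ` as a `ZMod ℓ`-algebra endomorphism -/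
def frobAlg : L →ₐ[ZMod ℓ] L where
  toFun a := a ^ ℓ
  map_one' := one_pow _
  map_mul' a b := mul_pow a b ℓ
  map_zero' := zero_pow (Fact.out : ℓ.Prime).ne_zero
  map_add' a b := by
    have := charP_of_algebra (ℓ := ℓ) L
    exact add_pow_char a b ℓ
  commutes' r := by
    change (algebraMap (ZMod ℓ) L r) ^ ℓ = _
    rw [← map_pow, ZMod.pow_card]

@[simp]
theorem frobAlg_apply (a : L) : frobAlg (ℓ := ℓ) L a = a ^ ℓ := rfl

variable [DecidableEq L]

/-- the Frobenius endomorphism of `E(L)` -/
def phi : (W'⁄L).Point →+ (W'⁄L).Point := Point.map (W' := W') (frobAlg (ℓ := ℓ) L)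

variable {L}

/-- Frobenius commutes with the maps induced by algebra homomorphisms -/
theorem map_phi {S : Type*} [CommRing S] [Algebra (ZMod ℓ) S] [Algebra S L]
    [IsScalarTower (ZMod ℓ) S L] {L' : Type*} [Field L'] [DecidableEq L'] [Algebra (ZMod ℓ) L']
    [Algebra S L'] [IsScalarTower (ZMod ℓ) S L'] (θ : L →ₐ[S] L') (P : (W'⁄L).Point) :
    Point.map (W' := W') θ (phi W' L P) = phi W' L' (Point.map (W' := W') θ P) := by
  rcases P with _ | ⟨x, y, h⟩
  · rfl
  · simp only [phi, Point.map_some]
    congr 1 <;> simp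

variable (L)

theorem nonsingular_algebraMap_iff (x y : ZMod ℓ) :
    (W'⁄L).Nonsingular (algebraMap (ZMod ℓ) L x) (algebraMap (ZMod ℓ) L y) ↔ W'.Nonsingular x y :=
  map_nonsingular W' (algebraMap (ZMod ℓ) L).injective x y

/-- the points over the prime field, inside `E(L)` -/
def ofBase : W'.Point → (W'⁄L).Point
  | .zero => 0
  | .some x y h => .some (algebraMap (ZMod ℓ) L x) (algebraMap (ZMod ℓ) L y)
      ((nonsingular_algebraMap_iff W' L x y).mpr h)

theorem ofBase_zero : ofBase W' L 0 = 0 := rfl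

theorem ofBase_injective : Function.Injective (ofBase W' L) := by
  rintro (_ | ⟨x, y, h⟩) (_ | ⟨x', y', h'⟩) hPQ
  · rfl
  · exact absurd hPQ.symm (Point.some_ne_zero _)
  · exact absurd hPQ (Point.some_ne_zero _)
  · simp only [ofBase] at hPQ
    injection hPQ with h1 h2
    have := (algebraMap (ZMod ℓ) L).injective h1
    have := (algebraMap (ZMod ℓ) L).injective h2
    subst_vars
    rfl

theorem phi_ofBase (T : W'.Point) : phi W' L (ofBase W' L T) = ofBase W' L T := by
  rcases T with _ | ⟨x, y, h⟩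
  · rfl
  · simp only [ofBase, phi, Point.map_some]
    congr 1 <;> simp

/-- the fixed points of `a ↦ a ^ ℓ` are the elements of the prime field -/
theorem exists_algebraMap_eq_of_pow_eq {x : L} (hx : x ^ ℓ = x) :
    ∃ a : ZMod ℓ, algebraMap (ZMod ℓ) L a = x := by
  classical
  by_contra hne
  push Not at hne
  have hℓ : 1 < ℓ := (Fact.out : ℓ.Prime).one_lt
  have hp0 : (X ^ ℓ - X : L[X]) ≠ 0 := FiniteField.X_pow_card_sub_X_ne_zero L hℓ
  let Z : Finset L := insert x (Finset.univ.image (algebraMap (ZMod ℓ) L))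
  have hZ : Z.val ⊆ (X ^ ℓ - X : L[X]).roots := by
    intro z hz
    rw [Finset.mem_val, Finset.mem_insert, Finset.mem_image] at hz
    rw [mem_roots hp0, IsRoot.def, eval_sub, eval_pow, eval_X, sub_eq_zero]
    rcases hz with rfl | ⟨a, -, rfl⟩
    · exact hx
    · rw [← map_pow, ZMod.pow_card]
  have hcard := card_le_degree_of_subset_roots hZ
  rw [FiniteField.X_pow_card_sub_X_natDegree_eq L hℓ, Finset.card_insert_of_notMem,
    Finset.card_image_of_injective _ (algebraMap (ZMod ℓ) L).injective, Finset.card_univ,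
    ZMod.card] at hcard
  · omega
  · rw [Finset.mem_image]
    rintro ⟨a, -, ha⟩
    exact hne a ha

/-- the Frobenius-fixed points of `E(L)` are the points over the prime field -/
theorem exists_ofBase_eq_of_phi_eq {P : (W'⁄L).Point} (hP : phi W' L P = P) :
    ∃ T : W'.Point, ofBase W' L T = P := by
  rcases P with _ | ⟨x, y, h⟩
  · exact ⟨0, rfl⟩
  · simp only [phi, Point.map_some] at hP
    injection hP with h1 h2
    obtain ⟨a, rfl⟩ := exists_algebraMap_eq_of_pow_eq L (by simpa using h1)
    obtain ⟨b, rfl⟩ := exists_algebraMap_eq_of_pow_eq L (by simpa using h2)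
    exact ⟨.some a b ((nonsingular_algebraMap_iff W' L a b).mp h), rfl⟩

variable {L}

/-- `ofBase` is compatible with the maps induced by algebra homomorphisms -/
theorem map_ofBase {S : Type*} [CommRing S] [Algebra (ZMod ℓ) S] [Algebra S L]
    [IsScalarTower (ZMod ℓ) S L] {L' : Type*} [Field L'] [DecidableEq L'] [Algebra (ZMod ℓ) L']
    [Algebra S L'] [IsScalarTower (ZMod ℓ) S L'] (θ : L →ₐ[S] L') (T : W'.Point) :
    Point.map (W' := W') θ (ofBase W' L T) = ofBase W' L' T := by
  have hθ : ∀ a : ZMod ℓ, θ (algebraMap (ZMod ℓ) L a) = algebraMap (ZMod ℓ) L' a := fun a =>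
    RingHom.congr_fun (Subsingleton.elim ((θ : L →+* L').comp (algebraMap (ZMod ℓ) L))
      (algebraMap (ZMod ℓ) L')) a
  rcases T with _ | ⟨x, y, h⟩
  · rfl
  · simp only [ofBase, Point.map_some]
    congr 1 <;> exact hθ _

end Frob

section Main

variable {W'} {k : Type*} [Field k] [DecidableEq k] [Algebra (ZMod ℓ) k] [IsAlgClosed k]
  [W'.IsElliptic]

/-- over an algebraically closed field every `x` is the `x`-coordinate of a point -/
theorem exists_point_of_x (a : k) : ∃ b : k, (W'⁄k).Nonsingular a b := by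
  set c1 : k := (W'⁄k).a₁ * a + (W'⁄k).a₃ with hc1
  set c0 : k := a ^ 3 + (W'⁄k).a₂ * a ^ 2 + (W'⁄k).a₄ * a + (W'⁄k).a₆ with hc0
  have hdeg : degree (C c1 * X - C c0 : k[X]) < ((2 : ℕ) : WithBot ℕ) :=
    calc degree (C c1 * X - C c0 : k[X])
        ≤ max (degree (C c1 * X : k[X])) (degree (C c0 : k[X])) := degree_sub_le _ _
      _ ≤ 1 := max_le (degree_C_mul_X_le _) (degree_C_le.trans zero_le_one)
      _ < ((2 : ℕ) : WithBot ℕ) := by exact_mod_cast one_lt_two
  have hd : degree (X ^ 2 + (C c1 * X - C c0) : k[X]) ≠ 0 := by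
    rw [degree_add_eq_left_of_degree_lt (by rw [degree_X_pow]; exact hdeg), degree_X_pow]
    norm_num
  obtain ⟨b, hb⟩ := IsAlgClosed.exists_root _ hd
  refine ⟨b, equation_iff_nonsingular.mp ((equation_iff _ _).mpr ?_)⟩
  simp only [IsRoot.def, eval_add, eval_sub, eval_mul, eval_pow, eval_X, eval_C] at hb
  linear_combination hb

/-- some point of `E(k)` is moved by Frobenius -/
theorem exists_point_phi_ne : ∃ T : (W'⁄k).Point, phi W' k T ≠ T := by
  have hex : ∃ a : k, a ^ ℓ ≠ a := by
    by_contra hall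
    push Not at hall
    have hsurj : Function.Surjective (algebraMap (ZMod ℓ) k) := fun a =>
      exists_algebraMap_eq_of_pow_eq k (hall a)
    have : Finite k := Finite.of_surjective _ hsurj
    exact not_finite k
  obtain ⟨a, ha⟩ := hex
  obtain ⟨b, h⟩ := exists_point_of_x (W' := W') a
  refine ⟨.some a b h, fun hfix => ha ?_⟩
  simp only [phi, Point.map_some] at hfix
  injection hfix with h1 h2

variable (W' k) in
/-- the point `w = P₀ - φ P₀` of `E(K)` -/
def w : (W'⁄(KK W' k)).Point := genericPoint W' k - phi W' (KK W' k) (genericPoint W' k)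

theorem phi_baseChange {L : Type*} [Field L] [DecidableEq L] [Algebra (ZMod ℓ) L] [Algebra k L]
    [IsScalarTower (ZMod ℓ) k L] (T : (W'⁄k).Point) :
    phi W' L (Point.baseChange (W' := W') k L T) = Point.baseChange (W' := W') k L (phi W' k T) :=
  (map_phi W' (Algebra.ofId k L) T).symm

theorem map_tau_w (T : (W'⁄k).Point) :
    Point.map (W' := W') (tau T) (w W' k) = w W' k +
      (Point.baseChange (W' := W') k (KK W' k) T -
        Point.baseChange (W' := W') k (KK W' k) (phi W' k T)) := by
  rw [w, map_sub, map_phi, map_tau, map_add, phi_baseChange]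
  abel

theorem not_isConst_w : ¬ IsConst (W' := W') (k := k) (w W' k) := by
  rintro ⟨c, hc⟩
  obtain ⟨T, hT⟩ := exists_point_phi_ne (W' := W') (k := k)
  have h1 := map_tau_w (W' := W') T
  rw [← hc, Point.map_baseChange] at h1
  have h2 : Point.baseChange (W' := W') k (KK W' k) T =
      Point.baseChange (W' := W') k (KK W' k) (phi W' k T) := by
    have := sub_eq_zero.mp (add_eq_left.mp h1.symm)
    exact this
  exact hT (Point.map_injective _ h2).symm

variable (W' k) in
/-- the `k`-embedding `θ : K → K` with `θ P₀ = w` (“`1 - φ`”) -/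
def theta : KK W' k →ₐ[k] KK W' k := emb (w W' k) not_isConst_w

theorem map_theta : Point.map (W' := W') (theta W' k) (genericPoint W' k) = w W' k := map_emb _ _

/-- the translations by the points of `E(𝔽_ℓ)` fix the image of `θ` -/
theorem tau_comp_theta (T₀ : W'.Point) : (tau (ofBase W' k T₀)).comp (theta W' k) = theta W' k := by
  apply algHom_ext_of_genericPoint
  rw [← Point.map_map, map_theta, map_tau_w, phi_ofBase, sub_self, add_zero]

end Main

section CoordsIn

variable {W'} {k : Type*} [Field k] [Algebra (ZMod ℓ) k]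
variable {L : Type*} [Field L] [DecidableEq L] [Algebra (ZMod ℓ) L] [Algebra k L]

/-- the points of `E(L)` with coordinates in an intermediate field -/
def CoordsIn (M : IntermediateField k L) (P : (W'⁄L).Point) : Prop :=
  P ∈ (Point.map (W' := W') M.val).range

theorem coordsIn_some_iff (M : IntermediateField k L) {x y : L} (h : (W'⁄L).Nonsingular x y) :
    CoordsIn (W' := W') M (Point.some x y h) ↔ x ∈ M ∧ y ∈ M := by
  constructor
  · rintro ⟨Q, hQ⟩
    rcases Q with _ | ⟨a, b, hab⟩
    · exact absurd hQ.symm (Point.some_ne_zero _)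
    · rw [Point.map_some] at hQ
      injection hQ with h1 h2
      exact ⟨h1 ▸ a.2, h2 ▸ b.2⟩
  · rintro ⟨hx, hy⟩
    have h' : (W'⁄M).Nonsingular (⟨x, hx⟩ : M) ⟨y, hy⟩ :=
      (baseChange_nonsingular W' (f := M.val) M.val.injective _ _).mp h
    exact ⟨.some _ _ h', rfl⟩

theorem CoordsIn.add {M : IntermediateField k L} {P Q : (W'⁄L).Point}
    (hP : CoordsIn (W' := W') M P) (hQ : CoordsIn (W' := W') M Q) :
    CoordsIn (W' := W') M (P + Q) := add_mem hP hQ

end CoordsIn

section Degree

variable {W'} {k : Type*} [Field k] [DecidableEq k] [Algebra (ZMod ℓ) k] [IsAlgClosed k]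
  [W'.IsElliptic]

variable (W' k) in
/-- the image `θ(K)` of `θ` -/
abbrev Kw : IntermediateField k (KK W' k) := (theta W' k).fieldRange

theorem theta_mem (f : KK W' k) : theta W' k f ∈ Kw W' k := ⟨f, rfl⟩

theorem algebraMap_polynomial (p : k[X]) :
    algebraMap k[X] (KK W' k) p = aeval (xK W' k) p := by
  rw [IsScalarTower.algebraMap_apply k[X] (W'⁄k).CoordinateRing (KK W' k), aeval_xK]
  rfl

theorem algebraMap_polynomial_eq : algebraMap k[X] (KK W' k) =
    ((aeval (xK W' k) : k[X] →ₐ[k] KK W' k) : k[X] →+* KK W' k) :=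
  RingHom.ext algebraMap_polynomial

/-- the function field is algebraic over `k[x]` -/
theorem isAlgebraic_polynomial : Algebra.IsAlgebraic k[X] (KK W' k) := by
  have : Module.Finite k[X] (W'⁄k).CoordinateRing :=
    Module.Finite.of_basis (CoordinateRing.basis _)
  have : Algebra.IsAlgebraic (W'⁄k).CoordinateRing (KK W' k) :=
    IsLocalization.isAlgebraic _ (nonZeroDivisors (W'⁄k).CoordinateRing)
  exact Algebra.IsAlgebraic.trans k[X] (W'⁄k).CoordinateRing (KK W' k)

/-- every function satisfies a nonzero bivariate relation with `x` -/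
theorem exists_relation (f : KK W' k) : ∃ G : k[X][Y], G ≠ 0 ∧
    G.eval₂ ((aeval (xK W' k) : k[X] →ₐ[k] KK W' k) : k[X] →+* KK W' k) f = 0 := by
  obtain ⟨G, hG, hGf⟩ := (isAlgebraic_polynomial (W' := W') (k := k)).isAlgebraic f
  refine ⟨G, hG, ?_⟩
  rw [aeval_def, algebraMap_polynomial_eq] at hGf
  exact hGf

theorem transcendental_theta_xK : Transcendental k (theta W' k (xK W' k)) := by
  rintro ⟨p, hp, h⟩
  have hinj : Function.Injective (theta W' k) := (theta W' k).toRingHom.injective
  refine transcendental_xK (W' := W') (k := k) ⟨p, hp, hinj ?_⟩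
  rw [← aeval_algHom_apply, h, map_zero]

/-- `x` is algebraic over `θ(K)` -/
theorem isAlgebraic_xK : IsAlgebraic (Kw W' k) (xK W' k) := by
  obtain ⟨G, hG, hGz⟩ := exists_relation (W' := W') (k := k) (theta W' k (xK W' k))
  have hmem : theta W' k (xK W' k) ∈ Kw W' k := theta_mem _
  have htr := transcendental_theta_xK (W' := W') (k := k)
  exact isAlgebraic_of_exchange (F := k) (E := KK W' k) (x := xK W' k)
    (z := theta W' k (xK W' k)) htr hG hGz (Kw W' k) hmem

theorem aeval_xK_mem (M : IntermediateField (Kw W' k) (KK W' k)) (hx : xK W' k ∈ M) (p : k[X]) :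
    aeval (xK W' k) p ∈ M := by
  induction p using Polynomial.induction_on with
  | C c =>
    rw [aeval_C, IsScalarTower.algebraMap_apply k (Kw W' k) (KK W' k)]
    exact M.algebraMap_mem _
  | add p q hp hq => rw [map_add]; exact M.add_mem hp hq
  | monomial n c ih => rw [pow_succ, ← mul_assoc, map_mul, aeval_X]; exact M.mul_mem ih hx

/-- `K` is algebraic over `θ(K)` -/
theorem isAlgebraic_Kw : Algebra.IsAlgebraic (Kw W' k) (KK W' k) := by
  refine ⟨fun f => ?_⟩
  let M1 : IntermediateField (Kw W' k) (KK W' k) := IntermediateField.adjoin (Kw W' k) {xK W' k}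
  have hxM : xK W' k ∈ M1 := IntermediateField.mem_adjoin_simple_self _ _
  have : Algebra.IsAlgebraic (Kw W' k) M1 :=
    IntermediateField.isAlgebraic_adjoin_simple (isAlgebraic_xK (W' := W') (k := k)).isIntegral
  refine IsAlgebraic.restrictScalars (Kw W' k) (S := M1) ?_
  obtain ⟨G, hG, hGf⟩ := exists_relation (W' := W') (k := k) f
  let φ1 : k[X] →+* M1 := RingHom.codRestrict
    ((aeval (xK W' k) : k[X] →ₐ[k] KK W' k) : k[X] →+* KK W' k) M1
    (fun p => aeval_xK_mem M1 hxM p)
  have hinj : Function.Injective φ1 := by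
    intro p q hpq
    have h0 := transcendental_iff_injective.mp (transcendental_xK (W' := W') (k := k))
    exact h0 (congrArg (Subtype.val) hpq)
  refine ⟨G.map φ1, ?_, ?_⟩
  · rwa [Ne, Polynomial.map_eq_zero_iff hinj]
  · rw [aeval_def, eval₂_map]
    have hcomp : (algebraMap M1 (KK W' k)).comp φ1 =
        ((aeval (xK W' k) : k[X] →ₐ[k] KK W' k) : k[X] →+* KK W' k) := rfl
    rw [hcomp, hGf]

/-- `K = θ(K)(x, y)` -/
theorem adjoin_xy_eq_top :
    IntermediateField.adjoin (Kw W' k) {xK W' k, yK W' k} = ⊤ := by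
  rw [eq_top_iff]
  intro f _
  set M := IntermediateField.adjoin (Kw W' k) {xK W' k, yK W' k} with hM
  have hx : xK W' k ∈ M := IntermediateField.subset_adjoin _ _ (by simp)
  have hy : yK W' k ∈ M := IntermediateField.subset_adjoin _ _ (by simp)
  have haeval : ∀ p : k[X], aeval (xK W' k) p ∈ M := aeval_xK_mem M hx
  have hcr : ∀ c : (W'⁄k).CoordinateRing, algebraMap _ (KK W' k) c ∈ M := by
    intro c
    obtain ⟨p, q, rfl⟩ := CoordinateRing.exists_smul_basis_eq c
    rw [CoordinateRing.smul, CoordinateRing.smul, mul_one, map_add, map_mul,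
      ← aeval_xK, ← aeval_xK]
    exact M.add_mem (haeval p) (M.mul_mem (haeval q) hy)
  obtain ⟨a, b, -, rfl⟩ := IsFractionRing.div_surjective (W'⁄k).CoordinateRing f
  exact M.div_mem (hcr a) (hcr b)

theorem finiteDimensional_Kw : FiniteDimensional (Kw W' k) (KK W' k) := by
  have : Algebra.IsAlgebraic (Kw W' k) (KK W' k) := isAlgebraic_Kw
  have h1 : FiniteDimensional (Kw W' k)
      (IntermediateField.adjoin (Kw W' k) {xK W' k, yK W' k}) :=
    IntermediateField.finiteDimensional_adjoin fun x _ => Algebra.IsIntegral.isIntegral x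
  rw [adjoin_xy_eq_top] at h1
  exact (IntermediateField.topEquiv (F := Kw W' k) (E := KK W' k)).toLinearEquiv.finiteDimensional

/-- `x, y ∈ θ(K)(x ^ ℓ, y ^ ℓ)`: the relation `P₀ = w + φ P₀` -/
theorem xy_mem_adjoin_pow :
    ∀ s ∈ ({xK W' k, yK W' k} : Set (KK W' k)),
      s ∈ IntermediateField.adjoin (Kw W' k) ((· ^ ℓ) '' ({xK W' k, yK W' k} : Set (KK W' k))) := by
  set M := IntermediateField.adjoin (Kw W' k)
    ((· ^ ℓ) '' ({xK W' k, yK W' k} : Set (KK W' k))) with hM
  let Mk : IntermediateField k (KK W' k) := M.restrictScalars k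
  have hxl : xK W' k ^ ℓ ∈ M := IntermediateField.subset_adjoin _ _ ⟨xK W' k, by simp, rfl⟩
  have hyl : yK W' k ^ ℓ ∈ M := IntermediateField.subset_adjoin _ _ ⟨yK W' k, by simp, rfl⟩
  have hθ : ∀ f, theta W' k f ∈ M := fun f =>
    M.algebraMap_mem (⟨theta W' k f, theta_mem f⟩ : Kw W' k)
  -- the two summands have coordinates in `M`
  have h1 : CoordsIn (W' := W') Mk (w W' k) := by
    rw [← map_theta, PointEmb.genericPoint, Point.map_some, coordsIn_some_iff]
    exact ⟨hθ _, hθ _⟩
  have h2 : CoordsIn (W' := W') Mk (phi W' (KK W' k) (genericPoint W' k)) := by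
    rw [PointEmb.genericPoint, phi, Point.map_some, coordsIn_some_iff]
    exact ⟨hxl, hyl⟩
  have h3 := h1.add h2
  rw [w, sub_add_cancel, PointEmb.genericPoint, coordsIn_some_iff] at h3
  intro s hs
  rcases hs with rfl | rfl
  · exact h3.1
  · exact h3.2

/-- `K / θ(K)` is separable -/
theorem isSeparable_Kw : Algebra.IsSeparable (Kw W' k) (KK W' k) := by
  have := finiteDimensional_Kw (W' := W') (k := k)
  have : CharP (Kw W' k) ℓ := charP_of_algebra (Kw W' k)
  have : ExpChar (Kw W' k) ℓ := ExpChar.prime Fact.out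
  exact isSeparable_of_mem_adjoin_pow ℓ (Set.toFinite _) adjoin_xy_eq_top xy_mem_adjoin_pow

end Degree

section Count

variable {W'} {k : Type*} [Field k] [DecidableEq k] [Algebra (ZMod ℓ) k] [IsAlgClosed k]
  [W'.IsElliptic]
variable {Ω : Type*} [Field Ω] [DecidableEq Ω] [Algebra (KK W' k) Ω] [Algebra k Ω]
  [IsScalarTower k (KK W' k) Ω] [Algebra (ZMod ℓ) Ω]

variable (W' k Ω) in
/-- the structure map `K → Ω` as a `k`-algebra hom -/
abbrev jK : KK W' k →ₐ[k] Ω := IsScalarTower.toAlgHom k (KK W' k) Ω

theorem algebraMap_Kw (f : KK W' k) :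
    algebraMap (Kw W' k) Ω (⟨theta W' k f, theta_mem f⟩ : Kw W' k) =
      algebraMap (KK W' k) Ω (theta W' k f) :=
  rfl

variable (Ω) in
/-- the `θ(K)`-embedding `K → Ω` attached to a point of `E(𝔽_ℓ)`: the translation -/
def embOfPoint (T : W'.Point) : KK W' k →ₐ[Kw W' k] Ω where
  toRingHom := (algebraMap (KK W' k) Ω).comp (tau (ofBase W' k T) : KK W' k →+* KK W' k)
  commutes' := by
    rintro ⟨_, f, rfl⟩
    have h := AlgHom.congr_fun (tau_comp_theta (W' := W') (k := k) T) f
    simp only [AlgHom.comp_apply] at h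
    change algebraMap (KK W' k) Ω (tau (ofBase W' k T) (theta W' k f)) = _
    rw [h]
    rfl

theorem embOfPoint_apply (T : W'.Point) (f : KK W' k) :
    embOfPoint Ω T f = algebraMap (KK W' k) Ω (tau (ofBase W' k T) f) := rfl

/-- the image of the generic point under the embedding attached to `T` -/
theorem map_embOfPoint (T : W'.Point) :
    Point.map (W' := W') ((embOfPoint (W' := W') (k := k) Ω T).restrictScalars k)
        (genericPoint W' k) =
      Point.map (W' := W') (jK W' k Ω) (genericPoint W' k) + ofBase W' Ω T := by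
  have h1 : (embOfPoint (W' := W') (k := k) Ω T).restrictScalars k =
      (jK W' k Ω).comp (tau (ofBase W' k T)) :=
    AlgHom.ext fun f => rfl
  rw [h1, ← Point.map_map, map_tau, map_add, Point.map_baseChange]
  congr 1
  exact map_ofBase W' (Algebra.ofId k Ω) T

theorem embOfPoint_injective : Function.Injective (embOfPoint (W' := W') (k := k) Ω) := by
  intro T T' h
  have h1 := map_embOfPoint (W' := W') (k := k) (Ω := Ω) T
  rw [h, map_embOfPoint] at h1
  exact ofBase_injective W' Ω (add_left_cancel h1).symm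

theorem embOfPoint_surjective : Function.Surjective (embOfPoint (W' := W') (k := k) Ω) := by
  intro ι
  set ιk : KK W' k →ₐ[k] Ω := ι.restrictScalars k with hιk
  -- `ι` and the structure map agree on `θ(K)`
  have hcomp : ιk.comp (theta W' k) = (jK W' k Ω).comp (theta W' k) := by
    refine AlgHom.ext fun f => ?_
    have := ι.commutes (⟨theta W' k f, theta_mem f⟩ : Kw W' k)
    exact this
  -- the difference of the images of the generic point is Frobenius-fixed
  set D := Point.map (W' := W') ιk (genericPoint W' k) -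
    Point.map (W' := W') (jK W' k Ω) (genericPoint W' k) with hD
  have hw : Point.map (W' := W') ιk (w W' k) = Point.map (W' := W') (jK W' k Ω) (w W' k) := by
    rw [← map_theta, Point.map_map, Point.map_map, hcomp]
  have hfix : phi W' Ω D = D := by
    have h1 : D - phi W' Ω D = 0 := by
      rw [hD, map_sub, ← map_phi, ← map_phi]
      have : Point.map (W' := W') ιk (genericPoint W' k) -
          Point.map (W' := W') (jK W' k Ω) (genericPoint W' k) -
          (Point.map (W' := W') ιk (phi W' (KK W' k) (genericPoint W' k)) -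
            Point.map (W' := W') (jK W' k Ω) (phi W' (KK W' k) (genericPoint W' k))) =
          Point.map (W' := W') ιk (w W' k) - Point.map (W' := W') (jK W' k Ω) (w W' k) := by
        rw [w, map_sub, map_sub]; abel
      rw [this, hw, sub_self]
    exact (sub_eq_zero.mp h1).symm
  obtain ⟨T, hT⟩ := exists_ofBase_eq_of_phi_eq W' Ω hfix
  refine ⟨T, ?_⟩
  apply AlgHom.restrictScalars_injective k
  apply algHom_ext_of_genericPoint (W' := W')
  rw [map_embOfPoint, hT, hD]
  abel

end Count

section Final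

variable {W'} {k : Type*} [Field k] [DecidableEq k] [Algebra (ZMod ℓ) k] [IsAlgClosed k]
  [W'.IsElliptic]

/-- **`[K : θ(K)] = #E(𝔽_ℓ)`**, `θ` the `k`-embedding of `K = k(E)` with `θ P₀ = P₀ - φ P₀`. -/
theorem finrank_Kw : Module.finrank (Kw W' k) (KK W' k) = Nat.card W'.Point := by
  classical
  have := isSeparable_Kw (W' := W') (k := k)
  rw [← Field.finSepDegree_eq_finrank_of_isSeparable, Field.finSepDegree, Field.Emb]
  exact (Nat.card_congr (Equiv.ofBijective _
    ⟨embOfPoint_injective (W' := W') (k := k) (Ω := AlgebraicClosure (KK W' k)),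
      embOfPoint_surjective⟩)).symm

end Final

end

end Fermat.Agent.S58.HW.OneSubFrob
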