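import Fermat.Agent.S58.HW.HWGeneric

/-!
# From the generic point to all points: the translation trick

Scratch (helper12).  If `G(φ) P₀` is a constant point then `G(φ)` kills every point of `E(k)`.
-/

set_option autoImplicit false
set_option linter.unusedSectionVars false

namespace Fermat.Agent.S58.HW.Translate

open Polynomial WeierstrassCurve WeierstrassCurve.Affine
open Fermat.Agent.S58.HW.DegHeight Fermat.Agent.S58.HW.OddPoints Fermat.Agent.S58.HW.FrobAction
open Fermat.Agent.S58.HW.HWGeneric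

variable {R₀ : Type*} [CommRing R₀] {W₀ : WeierstrassCurve.Affine R₀}
variable {k K : Type*} [Field k] [Field K] [DecidableEq K] [DecidableEq k]
  [Algebra R₀ k] [Algebra R₀ K] [Algebra k K] [IsScalarTower R₀ k K] [IsAlgClosed k]

variable (D : GenData W₀ k K) (Φ : FrobData R₀ K)

/-- a point with algebraic `x`-coordinate is constant. -/
lemma mem_cst_of_isAlgebraic {u v : K} {h : (W₀⁄K).Nonsingular u v} (hu : IsAlgebraic k u) :
    Point.some u v h ∈ cst W₀ k K := by
  obtain ⟨c, rfl⟩ := mem_range_of_isAlgebraic hu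
  have hv : IsAlgebraic k v := by
    have heq := h.left
    rw [Affine.equation_iff] at heq
    refine ⟨Polynomial.X ^ 2 + Polynomial.C (algebraMap R₀ k W₀.a₁ * c + algebraMap R₀ k W₀.a₃) *
      Polynomial.X - Polynomial.C (c ^ 3 + algebraMap R₀ k W₀.a₂ * c ^ 2 +
        algebraMap R₀ k W₀.a₄ * c + algebraMap R₀ k W₀.a₆), ?_, ?_⟩
    · intro hp
      have := congrArg (fun p => Polynomial.coeff p 2) hp
      simp only [Polynomial.coeff_sub, Polynomial.coeff_add, Polynomial.coeff_X_pow,
        Polynomial.coeff_C_mul, Polynomial.coeff_X, Polynomial.coeff_C,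
        Polynomial.coeff_zero] at this
      norm_num at this
    · simp only [map_sub, map_add, map_mul, map_pow, Polynomial.aeval_X, Polynomial.aeval_C]
      simp only [baseChange_a₁, baseChange_a₂, baseChange_a₃, baseChange_a₄, baseChange_a₆,
        IsScalarTower.algebraMap_apply R₀ k K] at heq
      linear_combination heq
  obtain ⟨d, rfl⟩ := mem_range_of_isAlgebraic hv
  have hcd : (W₀⁄k).Nonsingular c d := by
    refine (W₀.baseChange_nonsingular (f := IsScalarTower.toAlgHom R₀ k K)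
      (IsScalarTower.toAlgHom R₀ k K).injective c d).mp ?_
    simp only [IsScalarTower.coe_toAlgHom']
    exact h
  refine ⟨Point.some c d hcd, ?_⟩
  rw [Point.map_some]
  congr 1

/-- the generic point is not constant. -/
lemma P₀_not_mem_cst : D.P₀ ∉ cst W₀ k K := by
  rintro ⟨Q, hQ⟩
  obtain rfl | ⟨c, d, h, rfl⟩ := Fermat.Agent.S58.HW.AddSubSpec.eq_zero_or_eq_some Q
  · rw [map_zero] at hQ
    exact Point.some_ne_zero _ hQ.symm
  · rw [Point.map_some, GenData.P₀] at hQ
    have hx := (Point.some.injEq ..).mp hQ |>.1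
    simp only [IsScalarTower.coe_toAlgHom'] at hx
    exact D.transc (hx ▸ isAlgebraic_algebraMap c)

/-- **translation trick.** -/
theorem act_eq_zero_of_mem_cst {G : ℤ[X]} (hG : Pf D Φ G ∈ cst W₀ k K) {c : (W₀⁄K).Point}
    (hc : c ∈ cst W₀ k K) : act Φ G c = 0 := by
  -- the point `P₀ + c` is affine with transcendental `x`
  have hne : D.P₀ + c ∉ cst W₀ k K := by
    intro h
    apply P₀_not_mem_cst D
    have := (cst W₀ k K).sub_mem h hc
    simpa using this
  obtain h0 | ⟨u, v, hns, huv⟩ := Fermat.Agent.S58.HW.AddSubSpec.eq_zero_or_eq_some (D.P₀ + c)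
  · exact absurd (h0 ▸ (cst W₀ k K).zero_mem) hne
  · have htr : Transcendental k u := by
      intro halg
      apply hne
      rw [huv]
      exact mem_cst_of_isAlgebraic halg
    set τ := D.θ u v hns htr with hτ
    have hτP : Point.map (τ.restrictScalars R₀) D.P₀ = D.P₀ + c := by
      rw [huv, GenData.P₀, Point.map_some]
      congr 1
      · exact D.θ_x _ _ _ _
      · exact D.θ_y _ _ _ _
    have h1 : Point.map (τ.restrictScalars R₀) (Pf D Φ G) = Pf D Φ G := map_eq_of_mem_cst τ hG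
    have h2 : Point.map (τ.restrictScalars R₀) (Pf D Φ G) = Pf D Φ G + act Φ G c := by
      rw [Pf, ← act_map, hτP, map_add]
    rw [h1] at h2
    exact left_eq_add.mp h2


/-! ### the relation on `E(k)` -/

variable (Φk : FrobData R₀ k)

lemma map_frob_comm (hℓ : Φk.ℓ = Φ.ℓ) (T : (W₀⁄k).Point) :
    Point.map (W' := W₀) (IsScalarTower.toAlgHom R₀ k K) (Point.map Φk.Fr T) =
      φ Φ (Point.map (IsScalarTower.toAlgHom R₀ k K) T) := by
  have hcomp : (IsScalarTower.toAlgHom R₀ k K).comp Φk.Fr =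
      Φ.Fr.comp (IsScalarTower.toAlgHom R₀ k K) := by
    ext c
    simp only [AlgHom.comp_apply, IsScalarTower.coe_toAlgHom', Φ.hFr, Φk.hFr, hℓ, map_pow]
  unfold φ
  rw [Point.map_map, Point.map_map, hcomp]

lemma act_charpoly (tt : ℤ) (P : (W₀⁄K).Point) :
    act Φ (X ^ 2 - C tt * X + C (Φ.ℓ : ℤ)) P = φ Φ (φ Φ P) - tt • φ Φ P + (Φ.ℓ : ℤ) • P := by
  simp only [act, map_add, map_sub, map_mul, map_pow, Polynomial.aeval_X, Polynomial.aeval_C,
    LinearMap.add_apply, LinearMap.sub_apply, Module.End.mul_apply, Module.algebraMap_end_apply,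
    pow_two]
  rfl

/-- **Hasse–Weil on points**: `φ² - tφ + ℓ = 0` on `E(k)`, `t = 1 + ℓ - deg (1 - φ)`. -/
theorem frob_sq_sub_add [(W₀⁄k : WeierstrassCurve k).IsElliptic] (hℓ : Φk.ℓ = Φ.ℓ)
    (T : (W₀⁄k).Point) :
    Point.map Φk.Fr (Point.map Φk.Fr T) - t D Φ • Point.map Φk.Fr T + (Φ.ℓ : ℤ) • T = 0 := by
  have hc : Point.map (W' := W₀) (IsScalarTower.toAlgHom R₀ k K) T ∈ cst W₀ k K := ⟨T, rfl⟩
  have h := act_eq_zero_of_mem_cst D Φ (Pf_charpoly_mem_cst D Φ) hc
  rw [act_charpoly, ← map_frob_comm Φ Φk hℓ, ← map_frob_comm Φ Φk hℓ] at h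
  apply Point.map_injective (W' := W₀) (IsScalarTower.toAlgHom R₀ k K)
  rw [map_add, map_sub, map_zsmul, map_zsmul, h, map_zero]

end Fermat.Agent.S58.HW.Translate
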