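import Mathlib
import Fermat.Agent.S58.HW.OneSubFrob
import Fermat.Agent.S58.HW.Translate

/-!
# S58 / HW: the Hasse–Weil relation on points

Instantiation of helper12's abstract chain (`GenData`, `FrobData`, `frob_sq_sub_add`) at the
function field `K = k(E)` of PointEmb, with `deg (1 - φ) = #E(𝔽_ℓ)` from OneSubFrob:

`hasse_weil : φ (φ T) - (ℓ + 1 - #E(𝔽_ℓ)) • φ T + ℓ • T = 0` for every point `T` of `E(L)`, `L` ANY
field over `ZMod ℓ`, `E = W'` an elliptic curve over `ZMod ℓ`.
-/

set_option autoImplicit false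
set_option linter.unusedSectionVars false

namespace Fermat.Agent.S58.HW.Instance

open WeierstrassCurve WeierstrassCurve.Affine Polynomial
open Fermat.Agent.S58.HW.PointEmb Fermat.Agent.S58.HW.OneSubFrob
open Fermat.Agent.S58.HW.OddPoints Fermat.Agent.S58.HW.FrobAction Fermat.Agent.S58.HW.DegHeight
open Fermat.Agent.S58.HW.HWGeneric Fermat.Agent.S58.HW.Translate
open scoped Polynomial.Bivariate

noncomputable section

variable {ℓ : ℕ} [Fact ℓ.Prime] (W' : Affine (ZMod ℓ)) [W'.IsElliptic]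
variable (k : Type*) [Field k] [Algebra (ZMod ℓ) k]

/-- `K = k(x) + k(x) y` -/
theorem gen_xy (z : KK W' k) : ∃ a b : RatFunc k,
    z = iota (xK W' k) transcendental_xK a + iota (xK W' k) transcendental_xK b * yK W' k := by
  obtain ⟨c1, c2, hc2, rfl⟩ := IsFractionRing.div_surjective (W'⁄k).CoordinateRing z
  have hc2ne : c2 ≠ 0 := nonZeroDivisors.ne_zero hc2
  obtain ⟨p, q, rfl⟩ := CoordinateRing.exists_smul_basis_eq c2
  have : Module.Finite k[X] (W'⁄k).CoordinateRing :=
    Module.Finite.of_basis (CoordinateRing.basis _)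
  have hN0 : Algebra.norm k[X] (p • (1 : (W'⁄k).CoordinateRing) +
      q • CoordinateRing.mk (W'⁄k) Y) ≠ 0 := fun h => hc2ne (Algebra.norm_eq_zero_iff.mp h)
  obtain ⟨N, hNdef⟩ : ∃ N : k[X], N = Algebra.norm k[X] (p • (1 : (W'⁄k).CoordinateRing) +
      q • CoordinateRing.mk (W'⁄k) Y) := ⟨_, rfl⟩
  rw [← hNdef] at hN0
  obtain ⟨cj, hcj⟩ : ∃ cj : (W'⁄k).CoordinateRing, cj = CoordinateRing.mk (W'⁄k)
    (C p + C q * (-(Y : k[X][Y]) - C (C (W'⁄k).a₁ * X + C (W'⁄k).a₃))) := ⟨_, rfl⟩
  have hN : algebraMap k[X] (W'⁄k).CoordinateRing N =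
      (p • (1 : (W'⁄k).CoordinateRing) + q • CoordinateRing.mk (W'⁄k) Y) * cj := by
    have hn := CoordinateRing.coe_norm_smul_basis (W' := W'⁄k) p q
    have hfac : CoordinateRing.mk (W'⁄k) (C p + C q * X) =
        p • (1 : (W'⁄k).CoordinateRing) + q • CoordinateRing.mk (W'⁄k) Y := by
      simp only [CoordinateRing.smul, map_add, map_mul, mul_one]
    rw [map_mul, hfac, ← hNdef, ← hcj] at hn
    exact hn
  have hcj0 : cj ≠ 0 := by
    intro h
    rw [h, mul_zero] at hN
    exact hN0 (FaithfulSMul.algebraMap_injective k[X] (W'⁄k).CoordinateRing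
      (by rw [hN, map_zero]))
  obtain ⟨p3, q3, h3⟩ := CoordinateRing.exists_smul_basis_eq (c1 * cj)
  have hinj := IsFractionRing.injective (W'⁄k).CoordinateRing (KK W' k)
  have hcjK : algebraMap (W'⁄k).CoordinateRing (KK W' k) cj ≠ 0 := fun h =>
    hcj0 (hinj (by rw [h, map_zero]))
  have hNK : aeval (xK W' k) N ≠ 0 := fun h =>
    hN0 ((transcendental_iff_injective.mp (transcendental_xK (W' := W') (k := k)))
      (by rw [h, map_zero]))
  refine ⟨algebraMap k[X] (RatFunc k) p3 / algebraMap k[X] (RatFunc k) N,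
    algebraMap k[X] (RatFunc k) q3 / algebraMap k[X] (RatFunc k) N, ?_⟩
  rw [map_div₀, map_div₀, iota_algebraMap, iota_algebraMap, iota_algebraMap,
    ← mul_div_mul_right _ _ hcjK, ← map_mul, ← map_mul, ← hN, ← h3]
  have e1 : algebraMap (W'⁄k).CoordinateRing (KK W' k)
      (algebraMap k[X] (W'⁄k).CoordinateRing N) = aeval (xK W' k) N := by
    rw [aeval_xK]; rfl
  have e2 : algebraMap (W'⁄k).CoordinateRing (KK W' k)
      (p3 • (1 : (W'⁄k).CoordinateRing) + q3 • CoordinateRing.mk (W'⁄k) Y) =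
      aeval (xK W' k) p3 + aeval (xK W' k) q3 * yK W' k := by
    rw [CoordinateRing.smul, CoordinateRing.smul, mul_one, map_add, map_mul, ← aeval_xK,
      ← aeval_xK]
    rfl
  rw [e1, e2]
  field_simp

/-- the generic point is not `2`-torsion -/
theorem yK_ne_negY : yK W' k ≠ (W'⁄(KK W' k)).negY (xK W' k) (yK W' k) := by
  intro h
  have hinj := IsFractionRing.injective (W'⁄k).CoordinateRing (KK W' k)
  -- the relation `2 y + a₁ x + a₃ = 0` in the coordinate ring
  have h0 : algebraMap (W'⁄k).CoordinateRing (KK W' k)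
      ((C (W'⁄k).a₁ * X + C (W'⁄k).a₃ : k[X]) • (1 : (W'⁄k).CoordinateRing) +
        (C 2 : k[X]) • CoordinateRing.mk (W'⁄k) Y) = 0 := by
    rw [CoordinateRing.smul, CoordinateRing.smul, mul_one, map_add, map_mul, ← aeval_xK,
      ← aeval_xK]
    simp only [map_add, map_mul, aeval_C, aeval_X]
    have e1 : algebraMap k (KK W' k) (W'⁄k).a₁ = (W'⁄(KK W' k)).a₁ := by
      rw [baseChange_a₁, baseChange_a₁]
      exact (IsScalarTower.algebraMap_apply (ZMod ℓ) k (KK W' k) _).symm
    have e3 : algebraMap k (KK W' k) (W'⁄k).a₃ = (W'⁄(KK W' k)).a₃ := by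
      rw [baseChange_a₃, baseChange_a₃]
      exact (IsScalarTower.algebraMap_apply (ZMod ℓ) k (KK W' k) _).symm
    rw [e1, e3, map_ofNat]
    rw [negY] at h
    change _ + _ + (2 : KK W' k) * yK W' k = 0
    linear_combination h
  have h1 := CoordinateRing.smul_basis_eq_zero (hinj (h0.trans (map_zero _).symm))
  obtain ⟨hp, hq⟩ := h1
  have h2 : (2 : k) = 0 := by
    have := congrArg (fun f : k[X] => f.coeff 0) hq
    simpa using this
  have ha1 : (W'⁄k).a₁ = 0 := by
    have := congrArg (fun f : k[X] => f.coeff 1) hp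
    simpa using this
  have ha3 : (W'⁄k).a₃ = 0 := by
    have := congrArg (fun f : k[X] => f.coeff 0) hp
    simpa using this
  have hΔ : (W'⁄k).Δ = 0 := by
    simp only [WeierstrassCurve.Δ, WeierstrassCurve.b₂, WeierstrassCurve.b₄, WeierstrassCurve.b₆,
      WeierstrassCurve.b₈, ha1, ha3]
    linear_combination (-8 * (W'⁄k).a₂ ^ 2 * (4 * (W'⁄k).a₂ * (W'⁄k).a₆ - (W'⁄k).a₄ ^ 2) -
      32 * (W'⁄k).a₄ ^ 3 - 216 * (W'⁄k).a₆ ^ 2 + 144 * (W'⁄k).a₂ * (W'⁄k).a₄ * (W'⁄k).a₆) * h2
  exact (W'⁄k).isUnit_Δ.ne_zero hΔ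

/-- helper12's generic-point datum at the function field -/
def genData : GenData W' k (KK W' k) where
  x := xK W' k
  y := yK W' k
  nonsing := equation_iff_nonsingular.mp equation_generic
  transc := transcendental_xK
  gen := gen_xy W' k
  emb u v h hu := ⟨embOf u v h.left hu, embOf_xK u v h.left hu, embOf_yK u v h.left hu⟩
  hy := yK_ne_negY W' k

/-- the Frobenius datum -/
def frobData (L : Type*) [Field L] [Algebra (ZMod ℓ) L] : FrobData (ZMod ℓ) L where
  ℓ := ℓ
  Fr := frobAlg L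
  hFr _ := rfl

section Main

variable {W' k} [DecidableEq k] [IsAlgClosed k]

theorem Pf_one_sub_X :
    Pf (genData W' k) (frobData (KK W' k)) (1 - X) = w W' k := by
  rw [Pf_sub, Pf_one, Pf_X]
  rfl

/-- **`deg (1 - φ) = #E(𝔽_ℓ)`** in helper12's degree form -/
theorem q_one_sub_X :
    q (genData W' k) (frobData (KK W' k)) (1 - X) = Nat.card W'.Point := by
  have hodd : w W' k ∈ (genData W' k).odd :=
    Pf_one_sub_X (W' := W') (k := k) ▸ Pf_mem_odd (genData W' k) (frobData (KK W' k)) (1 - X)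
  have hnc := not_isConst_w (W' := W') (k := k)
  have hmap := map_theta (W' := W') (k := k)
  unfold q
  rw [Pf_one_sub_X]
  rcases hw : w W' k with _ | ⟨u, v, h⟩
  · rw [hw] at hnc
    exact absurd isConst_zero hnc
  · rw [hw] at hodd hnc hmap
    obtain ⟨s, rfl⟩ := (genData W' k).exists_ι_eq_of_mem_odd hodd
    rw [(genData W' k).hgt_some_ι]
    have hu : Transcendental k ((genData W' k).ι s) := transcendental_of_not_isConst h hnc
    rw [← (genData W' k).finrank_fieldRange_θ s v h hu, ← finrank_Kw (W' := W') (k := k)]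
    have hθ : (genData W' k).θ ((genData W' k).ι s) v h hu = theta W' k := by
      rw [PointEmb.genericPoint, Point.map_some] at hmap
      injection hmap with h1 h2
      apply (genData W' k).algHom_ext
      · rw [(genData W' k).θ_x]; exact h1.symm
      · rw [(genData W' k).θ_y]; exact h2.symm
    rw [hθ]

/-- the Hasse–Weil relation on the points over an algebraically closed field -/
theorem hasse_weil_algClosed (T : (W'⁄k).Point) :
    phi W' k (phi W' k T) - ((ℓ : ℤ) + 1 - (Nat.card W'.Point : ℤ)) • phi W' k T +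
      (ℓ : ℤ) • T = 0 := by
  have h := frob_sq_sub_add (genData W' k) (frobData (KK W' k)) (frobData k) rfl T
  have ht : t (genData W' k) (frobData (KK W' k)) = (ℓ : ℤ) + 1 - (Nat.card W'.Point : ℤ) := by
    unfold t
    rw [q_one_sub_X]
    change (1 : ℤ) + (ℓ : ℤ) - _ = _
    ring
  rw [ht] at h
  exact h

end Main

section General

variable {W'}

/-- **Hasse–Weil on points**: for an elliptic curve `W'` over `ZMod ℓ` and ANY field `L` over
`ZMod ℓ`, the Frobenius `φ` of `E(L)` satisfies `φ² - a φ + ℓ = 0` with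
`a = ℓ + 1 - #E(𝔽_ℓ)`. -/
theorem hasse_weil (L : Type*) [Field L] [DecidableEq L] [Algebra (ZMod ℓ) L]
    (T : (W'⁄L).Point) :
    phi W' L (phi W' L T) - ((ℓ : ℤ) + 1 - (Nat.card W'.Point : ℤ)) • phi W' L T +
      (ℓ : ℤ) • T = 0 := by
  classical
  let j : L →ₐ[ZMod ℓ] AlgebraicClosure L := IsScalarTower.toAlgHom (ZMod ℓ) L (AlgebraicClosure L)
  apply Point.map_injective (W' := W') j
  rw [map_add, map_sub, map_zsmul, map_zsmul, map_phi, map_phi, map_zero]
  exact hasse_weil_algClosed (W' := W') (k := AlgebraicClosure L) _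

end General

end

end Fermat.Agent.S58.HW.Instance
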