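import Mathlib

/-!
# `addSubMap` computes `(x(P+Q) x(P-Q) : x(P+Q) + x(P-Q) : 1)`

Scratch (helper12): the statement left as a TODO in
`Mathlib/AlgebraicGeometry/EllipticCurve/Affine/AddSubMap.lean`.
-/

set_option autoImplicit false

namespace Fermat.Agent.S58.HW.AddSubSpec

open WeierstrassCurve MvPolynomial

variable {F : Type*} [Field F] {W : WeierstrassCurve.Affine F}

/-- evaluation of `addSubMap` at a coordinate vector, componentwise. -/
lemma eval_addSubMap (v : Fin 3 → F) :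
    (fun i => (addSubMap W i).eval v) =
      ![v 0 ^ 2 - W.b₄ * v 0 * v 2 - W.b₆ * v 1 * v 2 - W.b₈ * v 2 ^ 2,
        2 * v 1 * v 0 + W.b₂ * v 0 * v 2 + W.b₄ * v 1 * v 2 + W.b₆ * v 2 ^ 2,
        v 1 ^ 2 - 4 * v 0 * v 2] := by
  funext i
  fin_cases i <;> simp [addSubMap]

lemma eval_addSubMap_vec (s t u : F) :
    (fun i => (addSubMap W i).eval ![s, t, u]) =
      ![s ^ 2 - W.b₄ * s * u - W.b₆ * t * u - W.b₈ * u ^ 2,
        2 * t * s + W.b₂ * s * u + W.b₄ * t * u + W.b₆ * u ^ 2,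
        t ^ 2 - 4 * s * u] := by
  rw [eval_addSubMap]; simp

/-- generic case, sum of the two `x`-coordinates. -/
lemma addX_add_addX {x₁ x₂ y₁ y₂ : F} (h₁ : W.Equation x₁ y₁) (h₂ : W.Equation x₂ y₂)
    (hx : x₁ ≠ x₂) :
    (x₁ - x₂) ^ 2 * (W.addX x₁ x₂ ((y₁ - y₂) / (x₁ - x₂)) +
        W.addX x₁ x₂ ((y₁ - W.negY x₂ y₂) / (x₁ - x₂)))
      = 2 * (x₁ + x₂) * (x₁ * x₂) + W.b₂ * (x₁ * x₂) + W.b₄ * (x₁ + x₂) + W.b₆ := by
  rw [Affine.equation_iff] at h₁ h₂
  have hd : x₁ - x₂ ≠ 0 := sub_ne_zero.mpr hx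
  simp only [Affine.addX, Affine.negY, b₂, b₄, b₆]
  field_simp
  linear_combination 2 * h₁ + 2 * h₂

/-- generic case, product of the two `x`-coordinates. -/
lemma addX_mul_addX {x₁ x₂ y₁ y₂ : F} (h₁ : W.Equation x₁ y₁) (h₂ : W.Equation x₂ y₂)
    (hx : x₁ ≠ x₂) :
    (x₁ - x₂) ^ 2 * (W.addX x₁ x₂ ((y₁ - y₂) / (x₁ - x₂)) *
        W.addX x₁ x₂ ((y₁ - W.negY x₂ y₂) / (x₁ - x₂)))
      = (x₁ * x₂) ^ 2 - W.b₄ * (x₁ * x₂) - W.b₆ * (x₁ + x₂) - W.b₈ := by
  rw [Affine.equation_iff] at h₁ h₂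
  have hd : x₁ - x₂ ≠ 0 := sub_ne_zero.mpr hx
  simp only [Affine.addX, Affine.negY, b₄, b₆, b₈]
  field_simp
  grind

/-- `ψ₂² = 4x³ + b₂x² + 2b₄x + b₆` on the curve. -/
lemma psi2_sq {x y : F} (h : W.Equation x y) :
    (y - W.negY x y) ^ 2 = 4 * x ^ 3 + W.b₂ * x ^ 2 + 2 * W.b₄ * x + W.b₆ := by
  rw [Affine.equation_iff] at h
  simp only [Affine.negY, b₂, b₄, b₆]
  linear_combination 4 * h

/-- duplication formula. -/
lemma dup_formula {x y : F} (h : W.Equation x y) (hy : y ≠ W.negY x y) :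
    (y - W.negY x y) ^ 2 *
        W.addX x x ((3 * x ^ 2 + 2 * W.a₂ * x + W.a₄ - W.a₁ * y) / (y - W.negY x y))
      = x ^ 4 - W.b₄ * x ^ 2 - 2 * W.b₆ * x - W.b₈ := by
  rw [Affine.equation_iff] at h
  have hd : y - W.negY x y ≠ 0 := sub_ne_zero.mpr hy
  simp only [Affine.addX, b₄, b₆, b₈]
  field_simp
  simp only [Affine.negY]
  grind

/-- at a nonsingular `2`-torsion point the quartic is the square of the `x`-partial. -/
lemma quartic_of_two_torsion {x y : F} (h : W.Equation x y) (hy : y = W.negY x y) :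
    x ^ 4 - W.b₄ * x ^ 2 - 2 * W.b₆ * x - W.b₈
      = (W.a₁ * y - (3 * x ^ 2 + 2 * W.a₂ * x + W.a₄)) ^ 2 := by
  rw [Affine.equation_iff] at h
  simp only [Affine.negY] at hy
  simp only [b₄, b₆, b₈]
  grind


lemma vec3_eq {A B C a b d c : F} (h0 : A = c * a) (h1 : B = c * b) (h2 : C = c * d) :
    ![A, B, C] = c • ![a, b, d] := by
  subst h0 h1 h2
  rw [Matrix.smul_vec3]
  simp

variable [DecidableEq F]

open WeierstrassCurve.Affine WeierstrassCurve.Affine.Point

/-- the doubling case `Q = P`. -/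
lemma addSubMap_sym2x_self {x y : F} (h : W.Nonsingular x y) :
    ∃ c : F, c ≠ 0 ∧ (fun i => (addSubMap W i).eval ((some x y h).sym2x (some x y h))) =
      c • (some x y h + some x y h).sym2x 0 := by
  have he := h.left
  by_cases hy : y = W.negY x y
  · -- `2`-torsion
    refine ⟨(W.a₁ * y - (3 * x ^ 2 + 2 * W.a₂ * x + W.a₄)) ^ 2, ?_, ?_⟩
    · refine pow_ne_zero 2 ?_
      rcases (Affine.nonsingular_iff' x y).mp h |>.right with hX | hY
      · intro h0; apply hX; linear_combination h0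
      · exfalso; apply hY; simp only [Affine.negY] at hy; linear_combination hy
    · rw [add_self_of_Y_eq hy, sym2x_zero_zero, sym2x_some_some, eval_addSubMap_vec]
      have hq := quartic_of_two_torsion he hy
      have hp := psi2_sq he
      rw [← hy, sub_self] at hp
      refine vec3_eq ?_ ?_ ?_
      · linear_combination hq
      · linear_combination -hp
      · ring
  · refine ⟨(y - W.negY x y) ^ 2, pow_ne_zero 2 (sub_ne_zero.mpr hy), ?_⟩
    rw [add_self_of_Y_ne hy, sym2x_some_zero, sym2x_some_some, eval_addSubMap_vec,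
      slope_of_Y_ne rfl hy]
    have hq := dup_formula he hy
    have hp := psi2_sq he
    refine vec3_eq ?_ ?_ ?_
    · linear_combination -hq
    · linear_combination -hp
    · ring

lemma eq_zero_or_eq_some (P : W.Point) : P = 0 ∨ ∃ x y, ∃ h : W.Nonsingular x y, P = some x y h := by
  cases P
  · exact Or.inl rfl
  · exact Or.inr ⟨_, _, _, rfl⟩

/-- **`addSubMap` does what it claims.** -/
theorem addSubMap_sym2x (P Q : W.Point) :
    ∃ c : F, c ≠ 0 ∧ (fun i => (addSubMap W i).eval (P.sym2x Q)) = c • (P + Q).sym2x (P - Q) := by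
  obtain rfl | ⟨x₁, y₁, h₁, rfl⟩ := eq_zero_or_eq_some P
  · obtain rfl | ⟨x₂, y₂, h₂, rfl⟩ := eq_zero_or_eq_some Q
    · refine ⟨1, one_ne_zero, ?_⟩
      rw [zero_add, sub_zero, sym2x_zero_zero, eval_addSubMap_vec]
      refine vec3_eq ?_ ?_ ?_ <;> ring
    · refine ⟨1, one_ne_zero, ?_⟩
      rw [zero_add, zero_sub, sym2x_neg_right, sym2x_zero_some, sym2x_some_some, eval_addSubMap_vec]
      refine vec3_eq ?_ ?_ ?_ <;> ring
  · obtain rfl | ⟨x₂, y₂, h₂, rfl⟩ := eq_zero_or_eq_some Q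
    · refine ⟨1, one_ne_zero, ?_⟩
      rw [add_zero, sub_zero, sym2x_some_zero, sym2x_some_some, eval_addSubMap_vec]
      refine vec3_eq ?_ ?_ ?_ <;> ring
    · by_cases hx : x₁ = x₂
      · subst hx
        rcases Y_eq_of_X_eq h₁.left h₂.left rfl with hy | hy
        · -- `P = Q`
          subst hy
          obtain ⟨c, hc, h⟩ := addSubMap_sym2x_self h₁
          exact ⟨c, hc, by rw [h, sub_self]⟩
        · -- `P = -Q`
          have hPQ : some x₁ y₁ h₁ = -some x₁ y₂ h₂ := by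
            rw [neg_some]; congr
          have hQ : some x₁ y₂ h₂ = -some x₁ y₁ h₁ := by rw [hPQ, neg_neg]
          obtain ⟨c, hc, h⟩ := addSubMap_sym2x_self h₁
          refine ⟨c, hc, ?_⟩
          rw [hQ, sym2x_neg_right, h, add_neg_cancel, sub_neg_eq_add, sym2x_comm]
      · have hd : x₁ - x₂ ≠ 0 := sub_ne_zero.mpr hx
        refine ⟨(x₁ - x₂) ^ 2, pow_ne_zero 2 hd, ?_⟩
        rw [show some x₁ y₁ h₁ - some x₂ y₂ h₂ = some x₁ y₁ h₁ + -some x₂ y₂ h₂ from
          sub_eq_add_neg _ _, neg_some, add_of_X_ne hx, add_of_X_ne hx, sym2x_some_some,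
          sym2x_some_some, eval_addSubMap_vec, slope_of_X_ne hx, slope_of_X_ne hx]
        have hs := addX_add_addX h₁.left h₂.left hx
        have hm := addX_mul_addX h₁.left h₂.left hx
        refine vec3_eq ?_ ?_ ?_
        · linear_combination -hm
        · linear_combination -hs
        · ring

end Fermat.Agent.S58.HW.AddSubSpec
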