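import Mathlib

/-!
# Exact heights on `ℙⁿ(k(t))` via degrees of primitive polynomial coordinates

Scratch (helper12).  `HasHeight v h`: the projective point `v` over `RatFunc k` has a primitive
polynomial representative of maximal degree `h`.
-/

set_option autoImplicit false

namespace Fermat.Agent.S58.HW.DegHeight

open Polynomial

variable {k : Type*} [Field k]

/-- the maximal degree of a vector of polynomials. -/
noncomputable def maxDeg {n : ℕ} (p : Fin n → k[X]) : ℕ :=
  Finset.univ.sup fun i => (p i).natDegree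

lemma natDegree_le_maxDeg {n : ℕ} (p : Fin n → k[X]) (i : Fin n) : (p i).natDegree ≤ maxDeg p :=
  Finset.le_sup (f := fun i => (p i).natDegree) (Finset.mem_univ i)

lemma maxDeg_le {n : ℕ} {p : Fin n → k[X]} {H : ℕ} (h : ∀ i, (p i).natDegree ≤ H) :
    maxDeg p ≤ H :=
  Finset.sup_le fun i _ => h i

lemma exists_natDegree_eq_maxDeg {n : ℕ} [NeZero n] (p : Fin n → k[X]) :
    ∃ i, (p i).natDegree = maxDeg p := by
  obtain ⟨i, -, hi⟩ := Finset.exists_mem_eq_sup (Finset.univ : Finset (Fin n))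
    ⟨0, Finset.mem_univ _⟩ (fun i => (p i).natDegree)
  exact ⟨i, hi.symm⟩

/-- `v` has a primitive polynomial representative of maximal degree `h`. -/
def HasHeight {n : ℕ} (v : Fin n → RatFunc k) (h : ℕ) : Prop :=
  ∃ (p : Fin n → k[X]) (c : RatFunc k), c ≠ 0 ∧ Ideal.span (Set.range p) = ⊤ ∧
    (∀ i, v i = c * algebraMap k[X] (RatFunc k) (p i)) ∧ maxDeg p = h

lemma HasHeight.smul {n : ℕ} {v : Fin n → RatFunc k} {h : ℕ} (hv : HasHeight v h)
    {c : RatFunc k} (hc : c ≠ 0) : HasHeight (c • v) h := by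
  obtain ⟨p, c', hc', hp, hv, hh⟩ := hv
  refine ⟨p, c * c', mul_ne_zero hc hc', hp, fun i => ?_, hh⟩
  rw [Pi.smul_apply, smul_eq_mul, hv i, mul_assoc]

/-- two primitive vectors that are proportional over the fraction field differ by a unit. -/
lemma exists_unit_of_primitive {n : ℕ} {p p' : Fin n → k[X]}
    (hp : Ideal.span (Set.range p) = ⊤) (hp' : Ideal.span (Set.range p') = ⊤)
    {a b : k[X]} (hb : b ≠ 0) (h : ∀ i, b * p i = a * p' i) :
    ∃ e : k[X], IsUnit e ∧ ∀ i, p i = e * p' i := by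
  have h1 : (1 : k[X]) ∈ Ideal.span (Set.range p) := by rw [hp]; trivial
  have h1' : (1 : k[X]) ∈ Ideal.span (Set.range p') := by rw [hp']; trivial
  obtain ⟨r, hr⟩ := (Ideal.mem_span_range_iff_exists_fun).mp h1
  obtain ⟨r', hr'⟩ := (Ideal.mem_span_range_iff_exists_fun).mp h1'
  have hab : a ∣ b := by
    refine ⟨∑ i, r i * p' i, ?_⟩
    calc b = b * ∑ i, r i * p i := by rw [hr, mul_one]
      _ = ∑ i, r i * (b * p i) := by rw [Finset.mul_sum]; exact Finset.sum_congr rfl fun i _ => by ring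
      _ = ∑ i, r i * (a * p' i) := by simp only [h]
      _ = a * ∑ i, r i * p' i := by rw [Finset.mul_sum]; exact Finset.sum_congr rfl fun i _ => by ring
  have hba : b ∣ a := by
    refine ⟨∑ i, r' i * p i, ?_⟩
    calc a = a * ∑ i, r' i * p' i := by rw [hr', mul_one]
      _ = ∑ i, r' i * (a * p' i) := by rw [Finset.mul_sum]; exact Finset.sum_congr rfl fun i _ => by ring
      _ = ∑ i, r' i * (b * p i) := by simp only [h]
      _ = b * ∑ i, r' i * p i := by rw [Finset.mul_sum]; exact Finset.sum_congr rfl fun i _ => by ring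
  obtain ⟨e, he⟩ := associated_of_dvd_dvd hba hab
  refine ⟨e, e.isUnit, fun i => ?_⟩
  have := h i
  rw [← he] at this
  exact mul_left_cancel₀ hb (by rw [this]; ring)

lemma natDegree_unit_mul {e q : k[X]} (he : IsUnit e) : (e * q).natDegree = q.natDegree := by
  obtain ⟨r, hr, rfl⟩ := Polynomial.isUnit_iff.mp he
  exact natDegree_C_mul hr.ne_zero

theorem HasHeight.unique {n : ℕ} {v : Fin n → RatFunc k} {h h' : ℕ} (hv : HasHeight v h)
    (hv' : HasHeight v h') : h = h' := by
  obtain ⟨p, c, hc, hp, hvp, rfl⟩ := hv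
  obtain ⟨p', c', hc', hp', hvp', rfl⟩ := hv'
  -- `c * p = c' * p'`, write `c' / c = a / b`
  obtain ⟨a, b, hb, hab⟩ : ∃ a b : k[X], b ≠ 0 ∧ c' / c =
      algebraMap k[X] (RatFunc k) a / algebraMap k[X] (RatFunc k) b := by
    obtain ⟨a, b, hb, hab⟩ := IsFractionRing.div_surjective (A := k[X]) (c' / c)
    exact ⟨a, b, nonZeroDivisors.ne_zero hb, hab.symm⟩
  have hb' : algebraMap k[X] (RatFunc k) b ≠ 0 := by
    simpa using hb
  have key : ∀ i, b * p i = a * p' i := by
    intro i
    apply IsFractionRing.injective k[X] (RatFunc k)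
    rw [map_mul, map_mul]
    have h1 : c * algebraMap k[X] (RatFunc k) (p i) = c' * algebraMap k[X] (RatFunc k) (p' i) := by
      rw [← hvp i, ← hvp' i]
    have h2 : algebraMap k[X] (RatFunc k) a = c' / c * algebraMap k[X] (RatFunc k) b := by
      rw [hab]; field_simp
    have h3 : algebraMap k[X] (RatFunc k) (p i) = c' / c * algebraMap k[X] (RatFunc k) (p' i) := by
      field_simp
      linear_combination h1
    rw [h2, h3]
    ring
  obtain ⟨e, he, hpe⟩ := exists_unit_of_primitive hp hp' hb key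
  unfold maxDeg
  congr 1
  funext i
  rw [hpe i, natDegree_unit_mul he]


/-! ### points of `ℙ¹` -/

/-- the degree of a rational function: `max (deg num) (deg denom)`. -/
noncomputable def hdeg (x : RatFunc k) : ℕ := max x.num.natDegree x.denom.natDegree

lemma maxDeg_vec2 (a b : k[X]) : maxDeg ![a, b] = max a.natDegree b.natDegree := by
  simp [maxDeg, Fin.univ_succ]

lemma maxDeg_vec3 (a b c : k[X]) :
    maxDeg ![a, b, c] = max a.natDegree (max b.natDegree c.natDegree) := by
  simp [maxDeg, Fin.univ_succ]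

lemma span_range_vec2 (a b : k[X]) : Ideal.span (Set.range ![a, b]) = Ideal.span {a, b} := by
  congr 1
  ext x
  simp only [Set.mem_range, Set.mem_insert_iff, Set.mem_singleton_iff]
  constructor
  · rintro ⟨i, rfl⟩; fin_cases i <;> simp
  · rintro (rfl | rfl)
    · exact ⟨0, rfl⟩
    · exact ⟨1, rfl⟩

lemma hasHeight_infty : HasHeight (k := k) ![1, 0] 0 := by
  refine ⟨![1, 0], 1, one_ne_zero, ?_, fun i => ?_, ?_⟩
  · rw [span_range_vec2]
    exact Ideal.eq_top_of_isUnit_mem _ (Ideal.subset_span (by simp)) isUnit_one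
  · fin_cases i <;> simp
  · rw [maxDeg_vec2]; simp

lemma hasHeight_affine (x : RatFunc k) : HasHeight ![x, 1] (hdeg x) := by
  have hd : algebraMap k[X] (RatFunc k) x.denom ≠ 0 := by
    simpa using x.denom_ne_zero
  refine ⟨![x.num, x.denom], (algebraMap k[X] (RatFunc k) x.denom)⁻¹, inv_ne_zero hd, ?_,
    fun i => ?_, ?_⟩
  · rw [span_range_vec2]
    rw [Ideal.span_insert]
    exact (Ideal.sup_eq_top_iff_isCoprime _ _).mpr (RatFunc.isCoprime_num_denom x)
  · fin_cases i
    · simp only [Fin.zero_eta, Matrix.cons_val_zero]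
      rw [inv_mul_eq_div, RatFunc.num_div_denom]
    · simp only [Fin.mk_one, Matrix.cons_val_one, Matrix.cons_val_zero]
      rw [inv_mul_cancel₀ hd]
  · rw [maxDeg_vec2]; rfl


/-! ### the leading vector -/

lemma exists_coeff_maxDeg_ne_zero {n : ℕ} [NeZero n] {p : Fin n → k[X]}
    (hp : Ideal.span (Set.range p) = ⊤) : ∃ i, (p i).coeff (maxDeg p) ≠ 0 := by
  by_contra hcon
  push Not at hcon
  obtain ⟨i₀, hi₀⟩ := exists_natDegree_eq_maxDeg p
  have h0 : p i₀ = 0 := by
    have := hcon i₀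
    rw [← hi₀, coeff_natDegree, leadingCoeff_eq_zero] at this
    exact this
  have hM : maxDeg p = 0 := by rw [← hi₀, h0, natDegree_zero]
  have hall : ∀ i, p i = 0 := by
    intro i
    have hd : (p i).natDegree = 0 := Nat.le_zero.mp (hM ▸ natDegree_le_maxDeg p i)
    have := hcon i
    rw [hM] at this
    rw [eq_C_of_natDegree_eq_zero hd, this, C_0]
  have : Ideal.span (Set.range p) = ⊥ := by
    rw [Ideal.span_eq_bot]
    rintro x ⟨i, rfl⟩
    exact hall i
  rw [this] at hp
  exact bot_ne_top hp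

/-! ### the symmetric square `ℙ¹ × ℙ¹ → ℙ²` -/

lemma span_sym2_eq_top {p q : Fin 2 → k[X]} (hp : Ideal.span (Set.range p) = ⊤)
    (hq : Ideal.span (Set.range q) = ⊤) :
    Ideal.span (Set.range ![p 0 * q 0, p 0 * q 1 + p 1 * q 0, p 1 * q 1]) = ⊤ := by
  by_contra hne
  obtain ⟨M, hM, hle⟩ := Ideal.exists_le_maximal _ hne
  have hMp := hM.isPrime
  have h0 : p 0 * q 0 ∈ M := hle (Ideal.subset_span ⟨0, rfl⟩)
  have h1 : p 0 * q 1 + p 1 * q 0 ∈ M := hle (Ideal.subset_span ⟨1, rfl⟩)
  have h2 : p 1 * q 1 ∈ M := hle (Ideal.subset_span ⟨2, rfl⟩)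
  have hpM : ¬ (p 0 ∈ M ∧ p 1 ∈ M) := by
    rintro ⟨ha, hb⟩
    apply hM.ne_top
    rw [eq_top_iff, ← hp, Ideal.span_le]
    rintro x ⟨i, rfl⟩
    fin_cases i <;> assumption
  have hqM : ¬ (q 0 ∈ M ∧ q 1 ∈ M) := by
    rintro ⟨ha, hb⟩
    apply hM.ne_top
    rw [eq_top_iff, ← hq, Ideal.span_le]
    rintro x ⟨i, rfl⟩
    fin_cases i <;> assumption
  rcases hMp.mem_or_mem h0 with ha | hc
  · -- `p 0 ∈ M`
    have hb : p 1 ∉ M := fun hb => hpM ⟨ha, hb⟩
    have hd : q 1 ∈ M := (hMp.mem_or_mem h2).resolve_left hb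
    have : p 1 * q 0 ∈ M := by
      have := M.sub_mem h1 (M.mul_mem_right (q 1) ha)
      simpa using this
    have hc : q 0 ∈ M := (hMp.mem_or_mem this).resolve_left hb
    exact hqM ⟨hc, hd⟩
  · -- `q 0 ∈ M`
    have hd : q 1 ∉ M := fun hd => hqM ⟨hc, hd⟩
    have hb : p 1 ∈ M := (hMp.mem_or_mem h2).resolve_right hd
    have : p 0 * q 1 ∈ M := by
      have := M.sub_mem h1 (M.mul_mem_right (q 0) hb)
      simpa using this
    have ha : p 0 ∈ M := (hMp.mem_or_mem this).resolve_right hd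
    exact hpM ⟨ha, hb⟩

lemma maxDeg_sym2 {p q : Fin 2 → k[X]} (hp : Ideal.span (Set.range p) = ⊤)
    (hq : Ideal.span (Set.range q) = ⊤) :
    maxDeg ![p 0 * q 0, p 0 * q 1 + p 1 * q 0, p 1 * q 1] = maxDeg p + maxDeg q := by
  set m := maxDeg p with hm
  set n := maxDeg q with hn
  have hpm : ∀ i, (p i).natDegree ≤ m := natDegree_le_maxDeg p
  have hqn : ∀ i, (q i).natDegree ≤ n := natDegree_le_maxDeg q
  apply le_antisymm
  · apply maxDeg_le
    intro i
    fin_cases i
    · exact natDegree_mul_le.trans (Nat.add_le_add (hpm 0) (hqn 0))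
    · refine (natDegree_add_le _ _).trans (max_le ?_ ?_)
      · exact natDegree_mul_le.trans (Nat.add_le_add (hpm 0) (hqn 1))
      · exact natDegree_mul_le.trans (Nat.add_le_add (hpm 1) (hqn 0))
    · exact natDegree_mul_le.trans (Nat.add_le_add (hpm 1) (hqn 1))
  · -- some coefficient at `m + n` is nonzero
    obtain ⟨i, hi⟩ := exists_coeff_maxDeg_ne_zero hp
    obtain ⟨j, hj⟩ := exists_coeff_maxDeg_ne_zero hq
    rw [← hm] at hi
    rw [← hn] at hj
    have c00 : (p 0 * q 0).coeff (m + n) = (p 0).coeff m * (q 0).coeff n :=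
      coeff_mul_add_eq_of_natDegree_le (hpm 0) (hqn 0)
    have c01 : (p 0 * q 1).coeff (m + n) = (p 0).coeff m * (q 1).coeff n :=
      coeff_mul_add_eq_of_natDegree_le (hpm 0) (hqn 1)
    have c10 : (p 1 * q 0).coeff (m + n) = (p 1).coeff m * (q 0).coeff n :=
      coeff_mul_add_eq_of_natDegree_le (hpm 1) (hqn 0)
    have c11 : (p 1 * q 1).coeff (m + n) = (p 1).coeff m * (q 1).coeff n :=
      coeff_mul_add_eq_of_natDegree_le (hpm 1) (hqn 1)
    by_contra hlt
    push Not at hlt
    have hz : ∀ r, (![p 0 * q 0, p 0 * q 1 + p 1 * q 0, p 1 * q 1] r).coeff (m + n) = 0 :=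
      fun r => coeff_eq_zero_of_natDegree_lt (lt_of_le_of_lt (natDegree_le_maxDeg _ r) hlt)
    have z0 : (p 0).coeff m * (q 0).coeff n = 0 := by rw [← c00]; exact hz 0
    have z1 : (p 0).coeff m * (q 1).coeff n + (p 1).coeff m * (q 0).coeff n = 0 := by
      rw [← c01, ← c10, ← coeff_add]; exact hz 1
    have z2 : (p 1).coeff m * (q 1).coeff n = 0 := by rw [← c11]; exact hz 2
    -- case analysis
    have hi' : (p 0).coeff m ≠ 0 ∨ (p 1).coeff m ≠ 0 := by
      fin_cases i
      · exact Or.inl hi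
      · exact Or.inr hi
    have hj' : (q 0).coeff n ≠ 0 ∨ (q 1).coeff n ≠ 0 := by
      fin_cases j
      · exact Or.inl hj
      · exact Or.inr hj
    by_cases ha : (p 0).coeff m = 0
    · have hb : (p 1).coeff m ≠ 0 := hi'.resolve_left (not_not.mpr ha)
      have hd : (q 1).coeff n = 0 := (mul_eq_zero.mp z2).resolve_left hb
      have hc : (q 0).coeff n ≠ 0 := hj'.resolve_right (not_not.mpr hd)
      rw [ha, zero_mul, zero_add] at z1
      exact (mul_ne_zero hb hc) z1
    · have hc : (q 0).coeff n = 0 := (mul_eq_zero.mp z0).resolve_left ha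
      have hd : (q 1).coeff n ≠ 0 := hj'.resolve_left (not_not.mpr hc)
      have hb : (p 1).coeff m = 0 := (mul_eq_zero.mp z2).resolve_right hd
      rw [hb, zero_mul, add_zero] at z1
      exact (mul_ne_zero ha hd) z1

theorem HasHeight.sym2 {a b c d : RatFunc k} {m n : ℕ} (h1 : HasHeight ![a, b] m)
    (h2 : HasHeight ![c, d] n) : HasHeight ![a * c, a * d + b * c, b * d] (m + n) := by
  obtain ⟨p, e1, he1, hp, hvp, rfl⟩ := h1
  obtain ⟨q, e2, he2, hq, hvq, rfl⟩ := h2
  have ha : a = e1 * algebraMap k[X] (RatFunc k) (p 0) := hvp 0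
  have hb : b = e1 * algebraMap k[X] (RatFunc k) (p 1) := hvp 1
  have hc : c = e2 * algebraMap k[X] (RatFunc k) (q 0) := hvq 0
  have hd : d = e2 * algebraMap k[X] (RatFunc k) (q 1) := hvq 1
  refine ⟨![p 0 * q 0, p 0 * q 1 + p 1 * q 0, p 1 * q 1], e1 * e2, mul_ne_zero he1 he2,
    span_sym2_eq_top hp hq, fun i => ?_, maxDeg_sym2 hp hq⟩
  fin_cases i
  · simp only [Fin.zero_eta, Matrix.cons_val_zero, map_mul]; rw [ha, hc]; ring
  · simp only [Fin.mk_one, Matrix.cons_val_one, Matrix.cons_val_zero, map_add, map_mul]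
    rw [ha, hb, hc, hd]; ring
  · simp only [Fin.reduceFinMk, Matrix.cons_val, map_mul]; rw [hb, hd]; ring


/-! ### homogeneous polynomial maps with constant coefficients -/

open MvPolynomial in
lemma natDegree_eval_map_C_le {σ : Type*} {N : ℕ} {φ : MvPolynomial σ k}
    (hφ : φ.IsHomogeneous N) (p : σ → k[X]) {H : ℕ} (hp : ∀ i, (p i).natDegree ≤ H) :
    ((MvPolynomial.map (Polynomial.C : k →+* k[X]) φ).eval p).natDegree ≤ N * H := by
  rw [MvPolynomial.eval_map, MvPolynomial.eval₂_eq]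
  refine Polynomial.natDegree_sum_le_of_forall_le _ _ fun d hd => ?_
  refine (Polynomial.natDegree_C_mul_le _ _).trans ?_
  refine (Polynomial.natDegree_prod_le _ _).trans ?_
  rw [hφ.degree_eq_sum_deg_support hd, Finset.sum_mul]
  refine Finset.sum_le_sum fun i _ => ?_
  exact (Polynomial.natDegree_pow_le).trans (Nat.mul_le_mul_left _ (hp i))

section addSub

open WeierstrassCurve

variable {R S : Type*} [CommRing R] [CommRing S] (W : WeierstrassCurve R) (f : R →+* S)

lemma addSubMap_map (i : Fin 3) :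
    addSubMap (W.map f) i = MvPolynomial.map f (addSubMap W i) := by
  fin_cases i <;> simp [addSubMap, WeierstrassCurve.map_b₂, WeierstrassCurve.map_b₄,
    WeierstrassCurve.map_b₆, WeierstrassCurve.map_b₈, map_ofNat]

set_option maxHeartbeats 2000000 in
lemma addSubMapCoeff_map (ij : Fin 3 × Fin 3) :
    addSubMapCoeff (W.map f) ij = MvPolynomial.map f (addSubMapCoeff W ij) := by
  obtain ⟨i, j⟩ := ij
  fin_cases i <;> fin_cases j <;>
  simp [addSubMapCoeff, WeierstrassCurve.map_b₂, WeierstrassCurve.map_b₄,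
    WeierstrassCurve.map_b₆, WeierstrassCurve.map_b₈, map_ofNat]

/-- homogeneity: `F (c • v) = c² • F v`. -/
lemma eval_addSubMap_smul (c : R) (v : Fin 3 → R) (i : Fin 3) :
    (addSubMap W i).eval (c • v) = c ^ 2 * (addSubMap W i).eval v := by
  fin_cases i <;> simp [addSubMap] <;> ring

end addSub


section main

open WeierstrassCurve

variable (W : WeierstrassCurve k) [W.IsElliptic]

/-- `F(p)` is primitive if `p` is. -/
lemma span_addSubMap_eq_top {p : Fin 3 → k[X]} (hp : Ideal.span (Set.range p) = ⊤) :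
    Ideal.span (Set.range fun i => (addSubMap (W.map (C : k →+* k[X])) i).eval p) = ⊤ := by
  have h4 : ∀ i, p i ^ 4 ∈
      Ideal.span (Set.range fun i => (addSubMap (W.map (C : k →+* k[X])) i).eval p) := by
    intro i
    rw [← addSubMapCoeff_condition (W.map (C : k →+* k[X])) p i]
    refine Ideal.sum_mem _ fun j _ => ?_
    exact Ideal.mul_mem_left _ _ (Ideal.subset_span ⟨j, rfl⟩)
  have := Ideal.span_pow_eq_top (Set.range p) hp 4
  rw [eq_top_iff, ← this, Ideal.span_le]
  rintro x ⟨y, ⟨i, rfl⟩, rfl⟩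
  exact h4 i

omit [W.IsElliptic] in
lemma natDegree_addSubMap_le (p : Fin 3 → k[X]) (i : Fin 3) :
    ((addSubMap (W.map (C : k →+* k[X])) i).eval p).natDegree ≤ 2 * maxDeg p := by
  rw [addSubMap_map]
  exact natDegree_eval_map_C_le (isHomogeneous_addSubMap W i) p (natDegree_le_maxDeg p)

omit [W.IsElliptic] in
lemma natDegree_addSubMapCoeff_le (p : Fin 3 → k[X]) (ij : Fin 3 × Fin 3) :
    ((addSubMapCoeff (W.map (C : k →+* k[X])) ij).eval p).natDegree ≤ 2 * maxDeg p := by
  rw [addSubMapCoeff_map]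
  exact natDegree_eval_map_C_le (isHomogeneous_addSubMapCoeff W ij) p (natDegree_le_maxDeg p)

/-- `max deg F(p) = 2 max deg p`. -/
lemma maxDeg_addSubMap (p : Fin 3 → k[X]) :
    maxDeg (fun i => (addSubMap (W.map (C : k →+* k[X])) i).eval p) = 2 * maxDeg p := by
  apply le_antisymm
  · exact maxDeg_le fun i => natDegree_addSubMap_le W p i
  · obtain ⟨i, hi⟩ := exists_natDegree_eq_maxDeg p
    set H := maxDeg p with hH
    set M := maxDeg (fun i => (addSubMap (W.map (C : k →+* k[X])) i).eval p) with hM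
    have hcert := addSubMapCoeff_condition (W.map (C : k →+* k[X])) p i
    have hdeg : (p i ^ 4).natDegree = 4 * H := by rw [natDegree_pow, hi]
    have hle : (p i ^ 4).natDegree ≤ 2 * H + M := by
      rw [← hcert]
      refine natDegree_sum_le_of_forall_le _ _ fun j _ => ?_
      refine natDegree_mul_le.trans (Nat.add_le_add ?_ ?_)
      · rw [MvPolynomial.eval_mul, MvPolynomial.eval_C]
        refine natDegree_mul_le.trans ?_
        have hu : ((↑((W.map (C : k →+* k[X])).Δ'⁻¹) : k[X])).natDegree = 0 :=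
          natDegree_eq_zero_of_isUnit (Units.isUnit _)
        rw [hu, zero_add]
        exact natDegree_addSubMapCoeff_le W p (i, j)
      · exact natDegree_le_maxDeg (fun i => (addSubMap (W.map (C : k →+* k[X])) i).eval p) j
    omega

omit [W.IsElliptic] in
lemma map_algebraMap_eq : W.map (algebraMap k (RatFunc k)) =
      (W.map (C : k →+* k[X])).map (algebraMap k[X] (RatFunc k)) := by
  rw [WeierstrassCurve.map_map]
  rfl

omit [W.IsElliptic] in
lemma eval_comp_map {R S : Type*} [CommRing R] [CommRing S] (g : R →+* S) (φ : MvPolynomial (Fin 3) R) (p : Fin 3 → R) :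
    (MvPolynomial.map g φ).eval (g ∘ p) = g (φ.eval p) := by
  rw [MvPolynomial.eval_map]
  show _ = g (MvPolynomial.eval₂ (RingHom.id R) p φ)
  rw [MvPolynomial.eval₂_comp_left g]
  rfl

/-- **`addSubMap` exactly doubles the height.** -/
theorem HasHeight.map_addSub {v : Fin 3 → RatFunc k} {h : ℕ} (hv : HasHeight v h) :
    HasHeight (fun i => (addSubMap (W.map (algebraMap k (RatFunc k))) i).eval v) (2 * h) := by
  obtain ⟨p, c, hc, hp, hvp, rfl⟩ := hv
  have hv' : v = c • (algebraMap k[X] (RatFunc k) ∘ p) := by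
    funext i; rw [hvp i]; rfl
  have key : ∀ i, (addSubMap (W.map (algebraMap k (RatFunc k))) i).eval v =
      c ^ 2 * algebraMap k[X] (RatFunc k) ((addSubMap (W.map (C : k →+* k[X])) i).eval p) := by
    intro i
    rw [map_algebraMap_eq, hv', eval_addSubMap_smul, addSubMap_map, eval_comp_map]
  exact ⟨fun i => (addSubMap (W.map (C : k →+* k[X])) i).eval p, c ^ 2, pow_ne_zero 2 hc,
    span_addSubMap_eq_top W hp, key, maxDeg_addSubMap W p⟩

end main

end Fermat.Agent.S58.HW.DegHeight
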