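import Fermat.Agent.S58.HW.OddPoints

/-!
# The `ℤ[X]`-action through Frobenius on the generic point and its degree form

Scratch (helper12).
-/

set_option autoImplicit false
set_option linter.unusedSectionVars false

namespace Fermat.Agent.S58.HW.FrobAction

open Polynomial WeierstrassCurve WeierstrassCurve.Affine
open Fermat.Agent.S58.HW.DegHeight Fermat.Agent.S58.HW.OddPoints

variable {R₀ : Type*} [CommRing R₀] {W₀ : WeierstrassCurve.Affine R₀}
variable {k K : Type*} [Field k] [Field K] [DecidableEq K]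
  [Algebra R₀ k] [Algebra R₀ K] [Algebra k K] [IsScalarTower R₀ k K]

/-- Frobenius data on `K`. -/
structure FrobData (R₀ : Type*) [CommRing R₀] (K : Type*) [Field K] [Algebra R₀ K] where
  /-- the exponent -/
  ℓ : ℕ
  /-- the Frobenius endomorphism -/
  Fr : K →ₐ[R₀] K
  hFr : ∀ z, Fr z = z ^ ℓ

variable (D : GenData W₀ k K) (Φ : FrobData R₀ K)

/-- Frobenius on points. -/
noncomputable def φ : (W₀⁄K).Point →+ (W₀⁄K).Point := Point.map Φ.Fr

/-- Frobenius on points as a `ℤ`-linear map. -/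
noncomputable def φL : Module.End ℤ (W₀⁄K).Point := (φ (W₀ := W₀) Φ).toIntLinearMap

omit [DecidableEq K] in
lemma Fr_comp (θ : K →ₐ[k] K) :
    Φ.Fr.comp (θ.restrictScalars R₀) = (θ.restrictScalars R₀).comp Φ.Fr := by
  ext z
  simp [Φ.hFr]

/-- Frobenius commutes with the maps induced by `k`-embeddings. -/
lemma φ_map (θ : K →ₐ[k] K) (P : (W₀⁄K).Point) :
    φ Φ (Point.map (θ.restrictScalars R₀) P) = Point.map (θ.restrictScalars R₀) (φ Φ P) := by
  unfold φ
  rw [Point.map_map, Point.map_map, Fr_comp]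

/-- the action of `f ∈ ℤ[X]`. -/
noncomputable def act (f : ℤ[X]) : Module.End ℤ (W₀⁄K).Point := Polynomial.aeval (φL (W₀ := W₀) Φ) f

lemma commute_aeval {A : Type*} [Ring A] [Algebra ℤ A] {T a : A} (h : Commute T a) (f : ℤ[X]) :
    Commute T (Polynomial.aeval a f) := by
  induction f using Polynomial.induction_on' with
  | add p q hp hq => rw [map_add]; exact hp.add_right hq
  | monomial n c =>
    rw [Polynomial.aeval_monomial]
    exact (Algebra.commute_algebraMap_right c T).mul_right (h.pow_right n)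

lemma act_map (θ : K →ₐ[k] K) (f : ℤ[X]) (P : (W₀⁄K).Point) :
    act Φ f (Point.map (θ.restrictScalars R₀) P) = Point.map (θ.restrictScalars R₀) (act Φ f P) := by
  have hc : Commute ((Point.map (W' := W₀) (θ.restrictScalars R₀)).toIntLinearMap) (φL (W₀ := W₀) Φ) := by
    ext Q
    exact (φ_map Φ θ Q).symm
  have := commute_aeval hc f
  exact (LinearMap.congr_fun this.eq P).symm


lemma φ_mem_odd {P : (W₀⁄K).Point} (hP : P ∈ D.odd) : φ Φ P ∈ D.odd := by
  rw [GenData.mem_odd] at hP ⊢
  have := φ_map Φ D.σ P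
  rw [← this, hP, map_neg]

lemma act_mem_odd (f : ℤ[X]) {P : (W₀⁄K).Point} (hP : P ∈ D.odd) : act Φ f P ∈ D.odd := by
  unfold act
  induction f using Polynomial.induction_on' with
  | add p q hp hq =>
    rw [map_add, LinearMap.add_apply]
    exact D.odd.add_mem hp hq
  | monomial n c =>
    rw [Polynomial.aeval_monomial, Module.End.mul_apply, Module.algebraMap_end_apply]
    refine D.odd.zsmul_mem ?_ c
    induction n with
    | zero => simpa using hP
    | succ n ih =>
      rw [pow_succ', Module.End.mul_apply]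
      exact φ_mem_odd D Φ ih

/-- the point `f(φ) P₀`. -/
noncomputable def Pf (f : ℤ[X]) : (W₀⁄K).Point := act Φ f D.P₀

lemma Pf_mem_odd (f : ℤ[X]) : Pf D Φ f ∈ D.odd := act_mem_odd D Φ f D.P₀_mem_odd

lemma Pf_add (f g : ℤ[X]) : Pf D Φ (f + g) = Pf D Φ f + Pf D Φ g := by
  simp [Pf, act]

lemma Pf_sub (f g : ℤ[X]) : Pf D Φ (f - g) = Pf D Φ f - Pf D Φ g := by
  simp [Pf, act]

lemma Pf_mul (f g : ℤ[X]) : Pf D Φ (f * g) = act Φ f (Pf D Φ g) := by
  simp [Pf, act, Module.End.mul_apply]

lemma Pf_one : Pf D Φ 1 = D.P₀ := by simp [Pf, act]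

lemma Pf_X : Pf D Φ X = φ Φ D.P₀ := by simp [Pf, act, φL]

/-- the degree form. -/
noncomputable def q (f : ℤ[X]) : ℕ := D.hgt (Pf D Φ f)

/-- **parallelogram law for `q`.** -/
theorem q_par [(W₀⁄k : WeierstrassCurve k).IsElliptic] (f g : ℤ[X]) :
    q D Φ (f + g) + q D Φ (f - g) = 2 * (q D Φ f + q D Φ g) := by
  unfold q
  rw [Pf_add, Pf_sub]
  exact D.hgt_add_add_hgt_sub (Pf_mem_odd D Φ f) (Pf_mem_odd D Φ g)

lemma hdeg_X_pow (n : ℕ) : hdeg ((RatFunc.X : RatFunc k) ^ n) = n := by
  have h : (RatFunc.X : RatFunc k) ^ n = algebraMap k[X] (RatFunc k) (Polynomial.X ^ n) := by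
    rw [map_pow, RatFunc.algebraMap_X]
  rw [hdeg, h, RatFunc.num_algebraMap, RatFunc.denom_algebraMap]
  simp

theorem q_one : q D Φ 1 = 1 := by
  unfold q
  rw [Pf_one, GenData.P₀]
  have h := D.nonsing
  have hx : D.x = D.ι RatFunc.X := D.ι_X.symm
  have := D.hgt_some_ι (RatFunc.X) (v := D.y) (by rw [← hx]; exact h)
  have h1 : hdeg (RatFunc.X : RatFunc k) = 1 := by simpa using hdeg_X_pow (k := k) 1
  rw [h1] at this
  convert this using 2
  congr 1

theorem q_X : q D Φ X = Φ.ℓ := by
  unfold q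
  rw [Pf_X, φ, GenData.P₀, Point.map_some]
  have hx : Φ.Fr D.x = D.ι (RatFunc.X ^ Φ.ℓ) := by rw [map_pow, D.ι_X, Φ.hFr]
  have h := (W₀.baseChange_nonsingular (f := Φ.Fr) Φ.Fr.injective D.x D.y).mpr D.nonsing
  have := D.hgt_some_ι (RatFunc.X ^ Φ.ℓ) (v := Φ.Fr D.y) (by rw [← hx]; exact h)
  rw [hdeg_X_pow] at this
  convert this using 2
  congr 1


/-! ### constants -/

section constants

variable [IsAlgClosed k] [DecidableEq k]

omit [DecidableEq K] [DecidableEq k] in
/-- an element of an extension field which is algebraic over an algebraically closed field lies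
in it. -/
lemma mem_range_of_isAlgebraic {L : Type*} [Field L] [Algebra k L] {z : L}
    (hz : IsAlgebraic k z) : ∃ c : k, algebraMap k L c = z := by
  have hint : IsIntegral k z := hz.isIntegral
  have hirr := minpoly.irreducible hint
  have hdeg := IsAlgClosed.degree_eq_one_of_irreducible k hirr
  exact minpoly.mem_range_of_degree_eq_one k z hdeg

omit [DecidableEq K] [DecidableEq k] in
lemma transcendental_ι_of_hdeg_ne_zero {r : RatFunc k} (hr : hdeg r ≠ 0) :
    Transcendental k (D.ι r) := by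
  intro halg
  obtain ⟨c, hc⟩ := mem_range_of_isAlgebraic halg
  have : r = RatFunc.C c := by
    apply iota_injective D.x D.transc
    rw [← hc]
    exact (D.ι.commutes c).symm
  apply hr
  rw [this, hdeg, RatFunc.num_C, RatFunc.denom_C]
  simp

omit [DecidableEq K] [IsAlgClosed k] [DecidableEq k] in
lemma eq_C_of_hdeg_eq_zero {r : RatFunc k} (hr : hdeg r = 0) : ∃ c : k, r = RatFunc.C c := by
  have h1 : r.num.natDegree = 0 := Nat.le_zero.mp (hr ▸ le_max_left _ _)
  have h2 : r.denom.natDegree = 0 := Nat.le_zero.mp (hr ▸ le_max_right _ _)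
  refine ⟨r.num.coeff 0 / r.denom.coeff 0, ?_⟩
  conv_lhs => rw [← RatFunc.num_div_denom r]
  rw [Polynomial.eq_C_of_natDegree_eq_zero h1, Polynomial.eq_C_of_natDegree_eq_zero h2]
  simp [RatFunc.algebraMap_C, map_div₀]

variable (W₀ k K) in
omit [IsAlgClosed k] in
/-- the subgroup of constant points. -/
noncomputable def cst : AddSubgroup (W₀⁄K).Point :=
  (Point.map (W' := W₀) (IsScalarTower.toAlgHom R₀ k K)).range

omit [IsAlgClosed k] in
lemma hgt_eq_zero_of_mem_cst {P : (W₀⁄K).Point} (hP : P ∈ cst W₀ k K) :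
    D.hgt P = 0 := by
  obtain ⟨Q, rfl⟩ := hP
  obtain rfl | ⟨c, d, h, rfl⟩ := Fermat.Agent.S58.HW.AddSubSpec.eq_zero_or_eq_some Q
  · simp
  · rw [Point.map_some]
    have hc : (IsScalarTower.toAlgHom R₀ k K) c = D.ι (RatFunc.C c) := by
      rw [IsScalarTower.coe_toAlgHom']
      exact (D.ι.commutes c).symm
    have h' := (W₀.baseChange_nonsingular (f := IsScalarTower.toAlgHom R₀ k K)
      (IsScalarTower.toAlgHom R₀ k K).injective c d).mpr h
    have := D.hgt_some_ι (RatFunc.C c) (v := (IsScalarTower.toAlgHom R₀ k K) d)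
      (by rw [← hc]; exact h')
    have h0 : hdeg (RatFunc.C c) = 0 := by
      rw [hdeg, RatFunc.num_C, RatFunc.denom_C]; simp
    rw [h0] at this
    convert this using 2
    congr 1

/-- an odd point of height `0` is constant. -/
lemma mem_cst_of_hgt_eq_zero {P : (W₀⁄K).Point} (hP : P ∈ D.odd) (h0 : D.hgt P = 0) :
    P ∈ cst W₀ k K := by
  obtain rfl | ⟨u, v, h, rfl⟩ := Fermat.Agent.S58.HW.AddSubSpec.eq_zero_or_eq_some P
  · exact (cst W₀ k K).zero_mem
  · obtain ⟨r, rfl⟩ := D.exists_ι_eq_of_mem_odd hP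
    rw [D.hgt_some_ι] at h0
    obtain ⟨c, rfl⟩ := eq_C_of_hdeg_eq_zero h0
    have hc : D.ι (RatFunc.C c) = algebraMap k K c := D.ι.commutes c
    -- `v` is algebraic over `k`
    have hv : IsAlgebraic k v := by
      have heq := h.left
      rw [Affine.equation_iff] at heq
      refine ⟨Polynomial.X ^ 2 + Polynomial.C (algebraMap R₀ k W₀.a₁ * c + algebraMap R₀ k W₀.a₃) *
        Polynomial.X - Polynomial.C (c ^ 3 + algebraMap R₀ k W₀.a₂ * c ^ 2 +
          algebraMap R₀ k W₀.a₄ * c + algebraMap R₀ k W₀.a₆), ?_, ?_⟩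
      · intro hp
        have := congrArg (fun p => Polynomial.coeff p 2) hp
        simp only [Polynomial.coeff_sub, Polynomial.coeff_add, Polynomial.coeff_X_pow,
          Polynomial.coeff_C_mul, Polynomial.coeff_X, Polynomial.coeff_C,
          Polynomial.coeff_zero] at this
        norm_num at this
      · simp only [map_sub, map_add, map_mul, map_pow, Polynomial.aeval_X, Polynomial.aeval_C]
        rw [hc] at heq
        simp only [baseChange_a₁, baseChange_a₂, baseChange_a₃, baseChange_a₄, baseChange_a₆,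
          IsScalarTower.algebraMap_apply R₀ k K] at heq
        linear_combination heq
    obtain ⟨d, rfl⟩ := mem_range_of_isAlgebraic hv
    have hcd : (W₀⁄k).Nonsingular c d := by
      refine (W₀.baseChange_nonsingular (f := IsScalarTower.toAlgHom R₀ k K)
        (IsScalarTower.toAlgHom R₀ k K).injective c d).mp ?_
      simp only [IsScalarTower.coe_toAlgHom']
      rw [← hc]
      exact h
    refine ⟨Point.some c d hcd, ?_⟩
    rw [Point.map_some]
    congr 1
    simp only [IsScalarTower.coe_toAlgHom']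
    exact hc.symm

omit [IsAlgClosed k] in
/-- `k`-embeddings fix the constant points. -/
lemma map_eq_of_mem_cst (θ : K →ₐ[k] K) {P : (W₀⁄K).Point} (hP : P ∈ cst W₀ k K) :
    Point.map (θ.restrictScalars R₀) P = P := by
  obtain ⟨Q, rfl⟩ := hP
  have : (θ.restrictScalars R₀).comp (IsScalarTower.toAlgHom R₀ k K) =
      IsScalarTower.toAlgHom R₀ k K := by
    ext c
    simp only [AlgHom.comp_apply, IsScalarTower.coe_toAlgHom', AlgHom.coe_restrictScalars']
    exact θ.commutes c
  rw [Point.map_map, this]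

omit [IsAlgClosed k] in
lemma φ_mem_cst {P : (W₀⁄K).Point} (hP : P ∈ cst W₀ k K) : φ Φ P ∈ cst W₀ k K := by
  obtain ⟨Q, rfl⟩ := hP
  obtain rfl | ⟨c, d, h, rfl⟩ := Fermat.Agent.S58.HW.AddSubSpec.eq_zero_or_eq_some Q
  · simp only [map_zero]; exact (cst W₀ k K).zero_mem
  · rw [Point.map_some, φ, Point.map_some]
    simp only [IsScalarTower.coe_toAlgHom', Φ.hFr, ← map_pow]
    have hK : (W₀⁄K).Nonsingular (algebraMap k K (c ^ Φ.ℓ)) (algebraMap k K (d ^ Φ.ℓ)) := by
      have h1 := (W₀.baseChange_nonsingular (f := IsScalarTower.toAlgHom R₀ k K)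
        (IsScalarTower.toAlgHom R₀ k K).injective c d).mpr h
      have h2 := (W₀.baseChange_nonsingular (f := Φ.Fr) Φ.Fr.injective _ _).mpr h1
      simpa only [IsScalarTower.coe_toAlgHom', Φ.hFr, ← map_pow] using h2
    have hk : (W₀⁄k).Nonsingular (c ^ Φ.ℓ) (d ^ Φ.ℓ) :=
      (W₀.baseChange_nonsingular (f := IsScalarTower.toAlgHom R₀ k K)
        (IsScalarTower.toAlgHom R₀ k K).injective _ _).mp
        (by simpa only [IsScalarTower.coe_toAlgHom'] using hK)
    exact ⟨Point.some _ _ hk, by rw [Point.map_some]; rfl⟩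

omit [IsAlgClosed k] in
lemma act_mem_cst (f : ℤ[X]) {P : (W₀⁄K).Point} (hP : P ∈ cst W₀ k K) :
    act Φ f P ∈ cst W₀ k K := by
  unfold act
  induction f using Polynomial.induction_on' with
  | add p q hp hq =>
    rw [map_add, LinearMap.add_apply]
    exact (cst W₀ k K).add_mem hp hq
  | monomial n c =>
    rw [Polynomial.aeval_monomial, Module.End.mul_apply, Module.algebraMap_end_apply]
    refine (cst W₀ k K).zsmul_mem ?_ c
    induction n with
    | zero => simpa using hP
    | succ n ih =>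
      rw [pow_succ', Module.End.mul_apply]
      exact φ_mem_cst Φ ih

omit [DecidableEq K] [IsAlgClosed k] [DecidableEq k] in
/-- tower law for images of embeddings. -/
lemma finrank_fieldRange_comp (θ₁ θ₂ : K →ₐ[k] K) :
    Module.finrank (θ₂.comp θ₁).fieldRange K =
      Module.finrank θ₁.fieldRange K * Module.finrank θ₂.fieldRange K := by
  have hcomp : (θ₂.comp θ₁).fieldRange = (θ₁.fieldRange).map θ₂ := by
    rw [AlgHom.fieldRange_eq_map, AlgHom.fieldRange_eq_map, IntermediateField.map_map]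
  have h2 : θ₂.fieldRange = (⊤ : IntermediateField k K).map θ₂ := AlgHom.fieldRange_eq_map _
  have hle : (θ₁.fieldRange).map θ₂ ≤ (⊤ : IntermediateField k K).map θ₂ :=
    IntermediateField.map_mono _ le_top
  have h := IntermediateField.relfinrank_mul_relfinrank hle
    (le_top : (⊤ : IntermediateField k K).map θ₂ ≤ ⊤)
  rw [IntermediateField.relfinrank_map_map, IntermediateField.relfinrank_top_right,
    IntermediateField.relfinrank_top_right, IntermediateField.relfinrank_top_right] at h
  rw [hcomp, ← h, h2]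

omit [IsAlgClosed k] [DecidableEq k] in
lemma hgt_some_of_eq {u v : K} {h : (W₀⁄K).Nonsingular u v} {a : RatFunc k} (hu : D.ι a = u) :
    D.hgt (Point.some u v h) = hdeg a := by
  subst hu
  exact D.hgt_some_ι a h

omit [DecidableEq k] in
/-- the shape of an odd point of positive height. -/
lemma exists_some_of_hgt_ne_zero {P : (W₀⁄K).Point} (hP : P ∈ D.odd) (h : D.hgt P ≠ 0) :
    ∃ (r : RatFunc k) (w : K) (hns : (W₀⁄K).Nonsingular (D.ι r) w),
      P = Point.some (D.ι r) w hns ∧ hdeg r = D.hgt P ∧ Transcendental k (D.ι r) := by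
  obtain rfl | ⟨u, v, hns, rfl⟩ := Fermat.Agent.S58.HW.AddSubSpec.eq_zero_or_eq_some P
  · simp at h
  · obtain ⟨r, rfl⟩ := D.exists_ι_eq_of_mem_odd hP
    have hr : hdeg r = D.hgt (Point.some (D.ι r) v hns) := (D.hgt_some_ι r hns).symm
    exact ⟨r, v, hns, rfl, hr, transcendental_ι_of_hdeg_ne_zero D (hr ▸ h)⟩

/-- **multiplicativity of the degree form.** -/
theorem q_mul (f g : ℤ[X]) : q D Φ (f * g) = q D Φ f * q D Φ g := by
  by_cases hg : q D Φ g = 0
  · have h1 : Pf D Φ g ∈ cst W₀ k K := mem_cst_of_hgt_eq_zero D (Pf_mem_odd D Φ g) hg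
    have h2 : Pf D Φ (f * g) ∈ cst W₀ k K := by rw [Pf_mul]; exact act_mem_cst Φ f h1
    rw [q, hgt_eq_zero_of_mem_cst D h2, hg, mul_zero]
  · obtain ⟨s, v, hns, hPg, hs, htr⟩ := exists_some_of_hgt_ne_zero D (Pf_mem_odd D Φ g) hg
    set θg := D.θ (D.ι s) v hns htr with hθg_def
    have hθg : Point.map (θg.restrictScalars R₀) D.P₀ = Pf D Φ g := by
      rw [hPg, GenData.P₀, Point.map_some]
      congr 1
      · exact D.θ_x _ _ _ _
      · exact D.θ_y _ _ _ _
    have hfg : Pf D Φ (f * g) = Point.map (θg.restrictScalars R₀) (Pf D Φ f) := by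
      rw [Pf_mul, ← hθg, act_map]; rfl
    by_cases hf : q D Φ f = 0
    · have h1 : Pf D Φ f ∈ cst W₀ k K := mem_cst_of_hgt_eq_zero D (Pf_mem_odd D Φ f) hf
      rw [q, hfg, map_eq_of_mem_cst θg h1, ← q, hf, zero_mul]
    · obtain ⟨r, w, hns', hPf, hr, htr'⟩ := exists_some_of_hgt_ne_zero D (Pf_mem_odd D Φ f) hf
      set θf := D.θ (D.ι r) w hns' htr' with hθf_def
      have hodd := Pf_mem_odd D Φ (f * g)
      rw [hfg, hPf, Point.map_some] at hodd
      obtain ⟨s', hs'⟩ := D.exists_ι_eq_of_mem_odd hodd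
      simp only [AlgHom.coe_restrictScalars'] at hs'
      have htr'' : Transcendental k (D.ι s') := by
        rw [hs']
        intro halg
        exact htr' ((isAlgebraic_algHom_iff θg θg.injective).mp halg)
      have hq : q D Φ (f * g) = hdeg s' := by
        unfold q
        rw [hfg, hPf, Point.map_some]
        exact hgt_some_of_eq D hs'
      have hns'' : (W₀⁄K).Nonsingular (D.ι s') (θg w) := by
        rw [hs']
        exact (W₀.baseChange_nonsingular (f := θg.restrictScalars R₀)
          (θg.restrictScalars R₀).injective _ _).mpr hns'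
      have hcomp : D.θ (D.ι s') (θg w) hns'' htr'' = θg.comp θf := by
        apply D.algHom_ext
        · rw [D.θ_x, AlgHom.comp_apply, hθf_def, D.θ_x, hs']
        · rw [D.θ_y, AlgHom.comp_apply, hθf_def, D.θ_y]
      have h1 := D.finrank_fieldRange_θ s' (θg w) hns'' htr''
      have h2 := D.finrank_fieldRange_θ r w hns' htr'
      have h3 := D.finrank_fieldRange_θ s v hns htr
      rw [hcomp, finrank_fieldRange_comp, h2, h3] at h1
      rw [hq, ← h1, hr, hs]
      rfl

end constants

end Fermat.Agent.S58.HW.FrobAction
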