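import Mathlib

/-!
# S58, block HW (Hasse–Weil congruence), abstract core 1: degree forms

A *degree form* on a ring `R` (think: `R = End(E)` for an elliptic curve `E` over an algebraically
closed field, `q = deg`) is a function `q : R → ℤ` which

* satisfies the parallelogram law `q (a + b) + q (a - b) = 2 q a + 2 q b`,
* is multiplicative, `q 1 = 1`.

No dual isogeny, no Weil pairing: from these axioms alone we derive

* `B a b := q (a + b) - q a - q b` is biadditive, `tr a := B 1 a` is additive, `tr n = 2 n`;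
* **Cayley–Hamilton**: `q (a * a - tr a • a + q a • 1) = 0` for every `a : R`
  (`DegForm.q_cayley_hamilton`), hence `a * a - tr a • a + q a • 1 = 0` if `q` is anisotropic
  (`DegForm.cayley_hamilton`);
* `q (c + l * ψ) = c² + c l tr ψ + l² q ψ`, `tr (c + l * ψ) = 2 c + l tr ψ`.
-/

set_option autoImplicit false

namespace Fermat.Agent.S58.HW.QuadDeg

/-- A degree form on a ring: `ℤ`-valued, parallelogram law, multiplicative. -/
structure DegForm (R : Type*) [Ring R] where
  /-- the degree -/
  q : R → ℤ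
  par : ∀ a b, q (a + b) + q (a - b) = 2 * q a + 2 * q b
  mul : ∀ a b, q (a * b) = q a * q b
  one : q 1 = 1

/-- anisotropic: only `0` has degree `0` -/
def DegForm.Aniso {R : Type*} [Ring R] (D : DegForm R) : Prop := ∀ a, D.q a = 0 → a = 0

namespace DegForm

variable {R : Type*} [Ring R] (D : DegForm R)

theorem q_zero : D.q 0 = 0 := by
  have h := D.par 0 0
  simp only [add_zero, sub_zero] at h
  omega

theorem q_neg (a : R) : D.q (-a) = D.q a := by
  have h := D.par 0 a
  rw [zero_add, zero_sub, D.q_zero] at h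
  omega

theorem q_sub_comm (a b : R) : D.q (a - b) = D.q (b - a) := by
  rw [← neg_sub, D.q_neg]

/-- the polar form -/
def B (a b : R) : ℤ := D.q (a + b) - D.q a - D.q b

theorem B_comm (a b : R) : D.B a b = D.B b a := by
  unfold B
  rw [add_comm a b]
  ring

theorem q_add (a b : R) : D.q (a + b) = D.q a + D.q b + D.B a b := by
  unfold B
  ring

theorem q_sub (a b : R) : D.q (a - b) = D.q a + D.q b - D.B a b := by
  have h := D.par a b
  unfold B
  omega

/-- the three-term identity (Jordan–von Neumann) -/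
theorem q_add_add (x y z : R) :
    D.q (x + y + z) =
      D.q (x + y) + D.q (x + z) + D.q (y + z) - D.q x - D.q y - D.q z := by
  have h1 := D.par (x + z) y
  have h2 := D.par (y + z) x
  have h3 := D.par z (x - y)
  have h4 := D.par x y
  have e1 : x + z + y = x + y + z := by abel
  have e2 : y + z + x = x + y + z := by abel
  have e3 : z + (x - y) = x + z - y := by abel
  have e4 : z - (x - y) = y + z - x := by abel
  rw [e1] at h1
  rw [e2] at h2
  rw [e3, e4] at h3
  omega

theorem B_add_left (x y z : R) : D.B (x + y) z = D.B x z + D.B y z := by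
  have h := D.q_add_add x y z
  unfold B
  omega

theorem B_add_right (x y z : R) : D.B x (y + z) = D.B x y + D.B x z := by
  rw [D.B_comm, D.B_add_left, D.B_comm y, D.B_comm z]

theorem B_zero_left (y : R) : D.B 0 y = 0 := by
  unfold B
  rw [zero_add, D.q_zero]
  ring

theorem B_zero_right (x : R) : D.B x 0 = 0 := by
  rw [D.B_comm, D.B_zero_left]

theorem B_neg_left (x y : R) : D.B (-x) y = -D.B x y := by
  have h := D.B_add_left x (-x) y
  rw [add_neg_cancel, D.B_zero_left] at h
  omega

theorem B_neg_right (x y : R) : D.B x (-y) = -D.B x y := by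
  rw [D.B_comm, D.B_neg_left, D.B_comm]

theorem B_self (x : R) : D.B x x = 2 * D.q x := by
  have h := D.par x x
  rw [sub_self, D.q_zero] at h
  unfold B
  omega

/-- `B (·) y` as an additive map -/
def BHom (y : R) : R →+ ℤ where
  toFun x := D.B x y
  map_zero' := D.B_zero_left y
  map_add' x x' := D.B_add_left x x' y

@[simp] theorem BHom_apply (x y : R) : D.BHom y x = D.B x y := rfl

theorem B_zsmul_left (n : ℤ) (x y : R) : D.B (n • x) y = n * D.B x y := by
  have h := map_zsmul (D.BHom y) n x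
  simpa using h

theorem B_zsmul_right (n : ℤ) (x y : R) : D.B x (n • y) = n * D.B x y := by
  rw [D.B_comm, D.B_zsmul_left, D.B_comm]

theorem q_zsmul (n : ℤ) (x : R) : D.q (n • x) = n ^ 2 * D.q x := by
  have h := D.B_self (n • x)
  rw [D.B_zsmul_left, D.B_zsmul_right, D.B_self] at h
  have : 2 * D.q (n • x) = 2 * (n ^ 2 * D.q x) := by rw [← h]; ring
  omega

theorem B_mul_right (a b c : R) : D.B (a * c) (b * c) = D.B a b * D.q c := by
  unfold B
  rw [← add_mul, D.mul, D.mul, D.mul]
  ring

theorem B_mul_left (a b c : R) : D.B (c * a) (c * b) = D.q c * D.B a b := by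
  unfold B
  rw [← mul_add, D.mul, D.mul, D.mul]
  ring

/-- the trace -/
def tr (a : R) : ℤ := D.B 1 a

theorem tr_add (a b : R) : D.tr (a + b) = D.tr a + D.tr b := D.B_add_right 1 a b

theorem tr_zero : D.tr 0 = 0 := D.B_zero_right 1

theorem tr_neg (a : R) : D.tr (-a) = -D.tr a := D.B_neg_right 1 a

theorem tr_sub (a b : R) : D.tr (a - b) = D.tr a - D.tr b := by
  rw [sub_eq_add_neg, D.tr_add, D.tr_neg]
  ring

theorem tr_zsmul (n : ℤ) (a : R) : D.tr (n • a) = n * D.tr a := D.B_zsmul_right n 1 a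

theorem tr_one : D.tr 1 = 2 := by
  unfold tr
  rw [D.B_self, D.one]
  ring

theorem tr_intCast (n : ℤ) : D.tr (n : R) = 2 * n := by
  have h : (n : R) = n • (1 : R) := by simp
  rw [h, D.tr_zsmul, D.tr_one]
  ring

theorem q_intCast (n : ℤ) : D.q (n : R) = n ^ 2 := by
  have h : (n : R) = n • (1 : R) := by simp
  rw [h, D.q_zsmul, D.one]
  ring

theorem q_one_add (a : R) : D.q (1 + a) = 1 + D.tr a + D.q a := by
  rw [D.q_add, D.one]
  unfold tr
  ring

theorem q_one_sub (a : R) : D.q (1 - a) = 1 - D.tr a + D.q a := by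
  rw [D.q_sub, D.one]
  unfold tr
  ring

/-- `tr a = 1 + q a - q (1 - a)`: for `a` the Frobenius, this is `1 + l - #E(F_l)`. -/
theorem tr_eq (a : R) : D.tr a = 1 + D.q a - D.q (1 - a) := by
  rw [D.q_one_sub]
  ring

theorem B_self_sq (a : R) : D.B a (a * a) = D.tr a * D.q a := by
  have h := D.B_mul_right 1 a a
  rw [one_mul] at h
  rw [h]
  rfl

theorem B_one_sq (a : R) : D.B 1 (a * a) = D.tr a ^ 2 - 2 * D.q a := by
  -- expand `q ((1 + a) * (1 + a)) = q (1 + a) ^ 2`
  have h1 : D.q ((1 + a) * (1 + a)) = (1 + D.tr a + D.q a) ^ 2 := by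
    rw [D.mul, D.q_one_add]
    ring
  have e : (1 + a) * (1 + a) = 1 + (2 : ℤ) • a + a * a := by
    rw [two_zsmul]
    noncomm_ring
  rw [e, D.q_add, D.q_add, D.one, D.q_zsmul, D.mul, D.B_add_left, D.B_zsmul_right,
    D.B_zsmul_left, D.B_self_sq] at h1
  have h2 : D.B 1 a = D.tr a := rfl
  rw [h2] at h1
  linear_combination h1

/-- **Cayley–Hamilton from the degree form alone**, degree version (no anisotropy needed). -/
theorem q_cayley_hamilton (a : R) : D.q (a * a - D.tr a • a + D.q a • (1 : R)) = 0 := by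
  set t := D.tr a with ht
  set d := D.q a with hd
  have e : a * a - t • a + d • (1 : R) = a * a + (-t) • a + d • (1 : R) := by
    rw [neg_zsmul, sub_eq_add_neg]
  rw [e, D.q_add, D.q_add, D.mul, D.q_zsmul, D.q_zsmul, D.one, D.B_add_left,
    D.B_zsmul_right, D.B_zsmul_right, D.B_zsmul_left, D.B_zsmul_right,
    D.B_comm (a * a) a, D.B_self_sq, D.B_comm (a * a) 1, D.B_one_sq]
  have h2 : D.B a 1 = t := D.B_comm a 1
  rw [h2]
  ring

/-- **Cayley–Hamilton from the degree form alone.** -/
theorem cayley_hamilton (h : D.Aniso) (a : R) : a * a - D.tr a • a + D.q a • (1 : R) = 0 :=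
  h _ (D.q_cayley_hamilton a)

/-- `q (c + l ψ)`. -/
theorem q_intCast_add_mul (c l : ℤ) (ψ : R) :
    D.q ((c : R) + l • ψ) = c ^ 2 + c * l * D.tr ψ + l ^ 2 * D.q ψ := by
  have h : (c : R) = c • (1 : R) := by simp
  rw [D.q_add, D.q_intCast, D.q_zsmul, h, D.B_zsmul_left, D.B_zsmul_right]
  unfold tr
  ring

/-- `tr (c + l ψ)`. -/
theorem tr_intCast_add_mul (c l : ℤ) (ψ : R) :
    D.tr ((c : R) + l • ψ) = 2 * c + l * D.tr ψ := by
  rw [D.tr_add, D.tr_intCast, D.tr_zsmul]

/-- the degree of `m + n a` is the binary quadratic form `m² + m n tr a + n² q a` -/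
theorem q_lin (m n : ℤ) (a : R) :
    D.q ((m : R) + n • a) = m ^ 2 + m * n * D.tr a + n ^ 2 * D.q a :=
  D.q_intCast_add_mul m n a

/-- Hasse: `tr a ^ 2 ≤ 4 q a`, provided `q` is nonnegative. -/
theorem tr_sq_le (hpos : ∀ a, 0 ≤ D.q a) (a : R) : D.tr a ^ 2 ≤ 4 * D.q a := by
  have h := hpos ((-D.tr a : ℤ) + (2 : ℤ) • a)
  rw [D.q_lin] at h
  nlinarith

end DegForm

end Fermat.Agent.S58.HW.QuadDeg
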