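import Fermat.Agent.S58.HW.FrobAction
import Fermat.Agent.S58.HW.QuadDeg

/-!
# The Hasse–Weil relation at the generic point

Scratch (helper12): `(φ² - tφ + ℓ) P₀` is a constant point, `t = 1 + ℓ - deg (1 - φ)`.
-/

set_option autoImplicit false
set_option linter.unusedSectionVars false

namespace Fermat.Agent.S58.HW.HWGeneric

open Polynomial WeierstrassCurve WeierstrassCurve.Affine
open Fermat.Agent.S58.HW.DegHeight Fermat.Agent.S58.HW.OddPoints Fermat.Agent.S58.HW.FrobAction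
open Fermat.Agent.S58.HW.QuadDeg

variable {R₀ : Type*} [CommRing R₀] {W₀ : WeierstrassCurve.Affine R₀}
variable {k K : Type*} [Field k] [Field K] [DecidableEq K] [DecidableEq k]
  [Algebra R₀ k] [Algebra R₀ K] [Algebra k K] [IsScalarTower R₀ k K] [IsAlgClosed k]
  [(W₀⁄k : WeierstrassCurve k).IsElliptic]

variable (D : GenData W₀ k K) (Φ : FrobData R₀ K)

/-- the degree form on `ℤ[X]`. -/
noncomputable def degForm : DegForm ℤ[X] where
  q f := (q D Φ f : ℤ)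
  par f g := by
    have := congrArg (fun n : ℕ => (n : ℤ)) (q_par D Φ f g)
    simp only [Nat.cast_add, Nat.cast_mul, Nat.cast_ofNat] at this
    linarith
  mul f g := by
    rw [q_mul D Φ f g]; push_cast; ring
  one := by rw [q_one D Φ]; rfl

/-- the trace of Frobenius. -/
noncomputable def t : ℤ := 1 + Φ.ℓ - q D Φ (1 - X)

lemma tr_X : (degForm D Φ).tr X = t D Φ := by
  rw [DegForm.tr_eq]
  change 1 + (q D Φ X : ℤ) - (q D Φ (1 - X) : ℤ) = _
  rw [q_X D Φ]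
  rfl

/-- **Hasse–Weil at the generic point**: `q (X² - tX + ℓ) = 0`. -/
theorem q_charpoly : q D Φ (X ^ 2 - C (t D Φ) * X + C (Φ.ℓ : ℤ)) = 0 := by
  have h := (degForm D Φ).q_cayley_hamilton X
  rw [tr_X] at h
  have hq : (degForm D Φ).q X = (Φ.ℓ : ℤ) := by
    change (q D Φ X : ℤ) = _
    rw [q_X D Φ]
  rw [hq] at h
  have he : X * X - t D Φ • (X : ℤ[X]) + (Φ.ℓ : ℤ) • (1 : ℤ[X]) =
      X ^ 2 - C (t D Φ) * X + C (Φ.ℓ : ℤ) := by
    rw [zsmul_eq_mul, zsmul_eq_mul, mul_one, pow_two]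
    simp
  rw [he] at h
  have h' : ((q D Φ (X ^ 2 - C (t D Φ) * X + C (Φ.ℓ : ℤ)) : ℕ) : ℤ) = 0 := h
  exact_mod_cast h'

/-- the point `(φ² - tφ + ℓ) P₀` is constant. -/
theorem Pf_charpoly_mem_cst :
    Pf D Φ (X ^ 2 - C (t D Φ) * X + C (Φ.ℓ : ℤ)) ∈ cst W₀ k K :=
  mem_cst_of_hgt_eq_zero D (Pf_mem_odd D Φ _) (q_charpoly D Φ)

end Fermat.Agent.S58.HW.HWGeneric
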