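import Fermat.Agent.S58.HW.Parallelogram

/-!
# Odd points of `E(K)`, `K = k(E)`: `x`-coordinates in `k(x)`, heights, degree identity

Scratch (helper12).  Hypotheses-first on an abstract "generic point datum" (to be instantiated
from the point-embedding calculus).
-/

set_option autoImplicit false
set_option linter.unusedSectionVars false

namespace Fermat.Agent.S58.HW.OddPoints

open Polynomial WeierstrassCurve WeierstrassCurve.Affine
open Fermat.Agent.S58.HW.DegHeight

section iota

variable {k K : Type*} [Field k] [Field K] [Algebra k K]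

/-- the embedding `k(t) → K`, `t ↦ x`, for a transcendental `x`. -/
noncomputable def iota (x : K) (hx : Transcendental k x) : RatFunc k →ₐ[k] K :=
  RatFunc.liftAlgHom (Polynomial.aeval x)
    (nonZeroDivisors_le_comap_nonZeroDivisors_of_injective _ (transcendental_iff_injective.mp hx))

lemma iota_algebraMap (x : K) (hx : Transcendental k x) (p : k[X]) :
    iota x hx (algebraMap k[X] (RatFunc k) p) = Polynomial.aeval x p := by
  have := RatFunc.liftAlgHom_apply_div (S := k) (φ := Polynomial.aeval x)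
    (hφ := nonZeroDivisors_le_comap_nonZeroDivisors_of_injective _
      (transcendental_iff_injective.mp hx)) p 1
  simpa [iota] using this

@[simp]
lemma iota_X (x : K) (hx : Transcendental k x) : iota x hx RatFunc.X = x := by
  rw [← RatFunc.algebraMap_X, iota_algebraMap, Polynomial.aeval_X]

lemma iota_injective (x : K) (hx : Transcendental k x) : Function.Injective (iota x hx) :=
  (iota x hx).toRingHom.injective

/-- `k`-algebra homs out of `k(t)` are determined by the image of `t`. -/
lemma ratFunc_algHom_ext {L : Type*} [Field L] [Algebra k L] {f g : RatFunc k →ₐ[k] L}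
    (h : f RatFunc.X = g RatFunc.X) : f = g := by
  have hp : ∀ p : k[X], f (algebraMap k[X] (RatFunc k) p) = g (algebraMap k[X] (RatFunc k) p) := by
    intro p
    have hf : (f.comp (IsScalarTower.toAlgHom k k[X] (RatFunc k))) =
        (g.comp (IsScalarTower.toAlgHom k k[X] (RatFunc k))) := by
      apply Polynomial.algHom_ext
      simpa [RatFunc.algebraMap_X] using h
    exact congrArg (fun φ : k[X] →ₐ[k] L => φ p) hf
  ext z
  induction z using RatFunc.induction_on with
  | f p q hq =>
    rw [map_div₀, map_div₀, hp, hp]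

end iota


section gendata

variable {R₀ : Type*} [CommRing R₀] (W₀ : WeierstrassCurve.Affine R₀)
variable (k K : Type*) [Field k] [Field K]
  [Algebra R₀ k] [Algebra R₀ K] [Algebra k K] [IsScalarTower R₀ k K]

/-- an abstract generic point of `E` over `K = k(E)`. -/
structure GenData where
  /-- the coordinates of the generic point -/
  x : K
  /-- the coordinates of the generic point -/
  y : K
  nonsing : (W₀⁄K).Nonsingular x y
  transc : Transcendental k x
  /-- `K = k(x) + k(x) y` -/
  gen : ∀ z : K, ∃ a b : RatFunc k, z = iota x transc a + iota x transc b * y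
  /-- every point with transcendental `x`-coordinate is the image of the generic point under a
  `k`-embedding `K → K` -/
  emb : ∀ u v : K, (W₀⁄K).Nonsingular u v → Transcendental k u →
    ∃ θ : K →ₐ[k] K, θ x = u ∧ θ y = v
  /-- the generic point is not `2`-torsion -/
  hy : y ≠ (W₀⁄K).negY x y

variable {W₀ k K}

namespace GenData

variable (D : GenData W₀ k K)

/-- `ι : k(t) → K`. -/
noncomputable abbrev ι : RatFunc k →ₐ[k] K := iota D.x D.transc

lemma ι_X : D.ι RatFunc.X = D.x := iota_X _ _

/-- `k`-embeddings of `K` are determined by the image of the generic point. -/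
lemma algHom_ext {L : Type*} [Field L] [Algebra k L] {θ₁ θ₂ : K →ₐ[k] L}
    (hx : θ₁ D.x = θ₂ D.x) (hy : θ₁ D.y = θ₂ D.y) : θ₁ = θ₂ := by
  have hι : θ₁.comp D.ι = θ₂.comp D.ι := by
    apply ratFunc_algHom_ext
    simpa [ι_X] using hx
  ext z
  obtain ⟨a, b, rfl⟩ := D.gen z
  have ha := congrArg (fun φ : RatFunc k →ₐ[k] L => φ a) hι
  have hb := congrArg (fun φ : RatFunc k →ₐ[k] L => φ b) hι
  simp only [AlgHom.comp_apply] at ha hb
  rw [map_add, map_add, map_mul, map_mul, ha, hb, hy]

/-- the embedding attached to a point with transcendental `x`-coordinate. -/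
noncomputable def θ (u v : K) (h : (W₀⁄K).Nonsingular u v) (hu : Transcendental k u) :
    K →ₐ[k] K := (D.emb u v h hu).choose

lemma θ_x (u v : K) (h : (W₀⁄K).Nonsingular u v) (hu : Transcendental k u) :
    D.θ u v h hu D.x = u := (D.emb u v h hu).choose_spec.1

lemma θ_y (u v : K) (h : (W₀⁄K).Nonsingular u v) (hu : Transcendental k u) :
    D.θ u v h hu D.y = v := (D.emb u v h hu).choose_spec.2

/-- the involution `σ = [-1]^*`. -/
noncomputable def σ : K →ₐ[k] K :=
  D.θ D.x ((W₀⁄K).negY D.x D.y) (((W₀⁄K).nonsingular_neg D.x D.y).mpr D.nonsing) D.transc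

lemma σ_x : D.σ D.x = D.x := D.θ_x _ _ _ _

lemma σ_y : D.σ D.y = (W₀⁄K).negY D.x D.y := D.θ_y _ _ _ _

lemma σ_ι (a : RatFunc k) : D.σ (D.ι a) = D.ι a := by
  have : D.σ.comp D.ι = D.ι := by
    apply ratFunc_algHom_ext
    simp [σ_x]
  exact congrArg (fun φ : RatFunc k →ₐ[k] K => φ a) this

/-- the fixed field of `σ` is `k(x)`. -/
lemma mem_range_ι_of_σ_eq {z : K} (hz : D.σ z = z) : ∃ a : RatFunc k, D.ι a = z := by
  obtain ⟨a, b, rfl⟩ := D.gen z
  rw [map_add, map_mul, σ_ι, σ_ι, σ_y] at hz
  have h0 : D.ι b * (D.y - (W₀⁄K).negY D.x D.y) = 0 := by linear_combination -hz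
  rcases mul_eq_zero.mp h0 with hb | hb
  · exact ⟨a, by rw [hb, zero_mul, add_zero]⟩
  · exact absurd (sub_eq_zero.mp hb) D.hy

variable [DecidableEq K]

/-- `σ` as an `R₀`-algebra hom (for `Point.map`). -/
noncomputable abbrev σ₀ : K →ₐ[R₀] K := D.σ.restrictScalars R₀

/-- the subgroup of odd points: `σ P = -P`. -/
noncomputable def odd : AddSubgroup (W₀⁄K).Point where
  carrier := {P | Point.map D.σ₀ P = -P}
  zero_mem' := by simp
  add_mem' := by
    intro P Q hP hQ
    simp only [Set.mem_ofPred_eq] at hP hQ ⊢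
    rw [map_add, hP, hQ, neg_add]
  neg_mem' := by
    intro P hP
    simp only [Set.mem_ofPred_eq] at hP ⊢
    rw [map_neg, hP]

lemma mem_odd {P : (W₀⁄K).Point} : P ∈ D.odd ↔ Point.map D.σ₀ P = -P := Iff.rfl

/-- the generic point. -/
noncomputable def P₀ : (W₀⁄K).Point := Point.some D.x D.y D.nonsing

lemma P₀_mem_odd : D.P₀ ∈ D.odd := by
  rw [mem_odd, P₀, Point.map_some, Point.neg_some]
  congr 1
  · exact D.σ_x
  · exact D.σ_y

/-- the `x`-coordinate of an odd affine point lies in `k(x)`. -/
lemma exists_ι_eq_of_mem_odd {u v : K} {h : (W₀⁄K).Nonsingular u v}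
    (hP : Point.some u v h ∈ D.odd) : ∃ a : RatFunc k, D.ι a = u := by
  rw [mem_odd, Point.map_some, Point.neg_some] at hP
  have := (Point.some.injEq ..).mp hP |>.1
  exact D.mem_range_ι_of_σ_eq this

open Classical in
/-- the height of a point (meaningful on odd points). -/
noncomputable def hgt : (W₀⁄K).Point → ℕ
  | .zero => 0
  | .some u _ _ => if h : ∃ a : RatFunc k, D.ι a = u then hdeg h.choose else 0

@[simp] lemma hgt_zero : D.hgt 0 = 0 := rfl

lemma hgt_some_ι (a : RatFunc k) {v : K} (h : (W₀⁄K).Nonsingular (D.ι a) v) :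
    D.hgt (Point.some (D.ι a) v h) = hdeg a := by
  have hex : ∃ a' : RatFunc k, D.ι a' = D.ι a := ⟨a, rfl⟩
  have : hex.choose = a := iota_injective _ _ hex.choose_spec
  simp only [hgt, dif_pos hex, this]

/-- an odd point has an `x`-representative over `k(t)` of height `hgt`. -/
lemma exists_xRep_of_mem_odd {P : (W₀⁄K).Point} (hP : P ∈ D.odd) :
    ∃ u : Fin 2 → RatFunc k, D.ι ∘ u = P.xRep ∧ HasHeight u (D.hgt P) := by
  obtain rfl | ⟨u, v, h, rfl⟩ := Fermat.Agent.S58.HW.AddSubSpec.eq_zero_or_eq_some P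
  · refine ⟨![1, 0], ?_, hasHeight_infty⟩
    funext i; fin_cases i <;> simp
  · obtain ⟨a, rfl⟩ := D.exists_ι_eq_of_mem_odd hP
    refine ⟨![a, 1], ?_, ?_⟩
    · funext i; fin_cases i <;> simp
    · rw [hgt_some_ι]; exact hasHeight_affine a

lemma baseChange_eq :
    (W₀⁄K : WeierstrassCurve K) =
      (((W₀⁄k : WeierstrassCurve k)).map (algebraMap k (RatFunc k))).map (D.ι : RatFunc k →+* K) := by
  change WeierstrassCurve.map W₀ (algebraMap R₀ K) = WeierstrassCurve.map
    (WeierstrassCurve.map (WeierstrassCurve.map W₀ (algebraMap R₀ k)) (algebraMap k (RatFunc k)))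
    (D.ι : RatFunc k →+* K)
  rw [WeierstrassCurve.map_map, WeierstrassCurve.map_map]
  congr 1
  ext r
  simp only [RingHom.coe_comp, Function.comp_apply, RingHom.coe_coe, AlgHom.commutes]
  rw [← IsScalarTower.algebraMap_apply]

/-- **The exact parallelogram law on odd points.** -/
theorem hgt_add_add_hgt_sub [(W₀⁄k : WeierstrassCurve k).IsElliptic] {P Q : (W₀⁄K).Point}
    (hP : P ∈ D.odd) (hQ : Q ∈ D.odd) :
    D.hgt (P + Q) + D.hgt (P - Q) = 2 * (D.hgt P + D.hgt Q) := by
  obtain ⟨u₁, h₁, H₁⟩ := D.exists_xRep_of_mem_odd hP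
  obtain ⟨u₂, h₂, H₂⟩ := D.exists_xRep_of_mem_odd hQ
  obtain ⟨u₃, h₃, H₃⟩ := D.exists_xRep_of_mem_odd (D.odd.add_mem hP hQ)
  obtain ⟨u₄, h₄, H₄⟩ := D.exists_xRep_of_mem_odd (D.odd.sub_mem hP hQ)
  exact Fermat.Agent.S58.HW.Parallelogram.parallelogram (W₀⁄k : WeierstrassCurve k)
    (D.ι : RatFunc k →+* K) D.baseChange_eq h₁ h₂ h₃ h₄ H₁ H₂ H₃ H₄

/-! ### the degree identity `[K : θ_Q K] = deg x(Q)` -/

omit [DecidableEq K] in
lemma fieldRange_ι_eq : D.ι.fieldRange = IntermediateField.adjoin k {D.x} := by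
  rw [AlgHom.fieldRange_eq_map, ← RatFunc.adjoin_X, IntermediateField.adjoin_map,
    Set.image_singleton, ι_X]

omit [DecidableEq K] in
lemma finite_over_fieldRange_ι : Module.Finite D.ι.fieldRange K := by
  refine Module.finite_def.mpr (Submodule.fg_def.mpr ⟨{1, D.y}, Set.toFinite _, ?_⟩)
  rw [eq_top_iff]
  rintro z -
  obtain ⟨a, b, rfl⟩ := D.gen z
  have ha : (⟨D.ι a, ⟨a, rfl⟩⟩ : D.ι.fieldRange) • (1 : K) ∈
      Submodule.span D.ι.fieldRange ({1, D.y} : Set K) :=
    Submodule.smul_mem _ _ (Submodule.subset_span (by simp))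
  have hb : (⟨D.ι b, ⟨b, rfl⟩⟩ : D.ι.fieldRange) • D.y ∈
      Submodule.span D.ι.fieldRange ({1, D.y} : Set K) :=
    Submodule.smul_mem _ _ (Submodule.subset_span (by simp))
  have := Submodule.add_mem _ ha hb
  convert this using 1
  simp [IntermediateField.smul_def]

omit [DecidableEq K] in
/-- **degree identity.** -/
theorem finrank_fieldRange_θ (s : RatFunc k) (v : K) (h : (W₀⁄K).Nonsingular (D.ι s) v)
    (hu : Transcendental k (D.ι s)) :
    Module.finrank (D.θ (D.ι s) v h hu).fieldRange K = hdeg s := by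
  set θ := D.θ (D.ι s) v h hu with hθ
  set F₀ : IntermediateField k K := D.ι.fieldRange with hF₀
  set F₁ : IntermediateField k K := IntermediateField.adjoin k {D.ι s} with hF₁
  set T : IntermediateField k K := θ.fieldRange with hT
  have := D.finite_over_fieldRange_ι
  have hd : 0 < Module.finrank F₀ K := Module.finrank_pos
  -- `F₁ = (k(s)).map ι`
  have hF₁' : F₁ = (IntermediateField.adjoin k {s}).map D.ι := by
    rw [IntermediateField.adjoin_map, Set.image_singleton]
  have hF₀' : F₀ = (⊤ : IntermediateField k (RatFunc k)).map D.ι := AlgHom.fieldRange_eq_map _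
  have h2 : IntermediateField.relfinrank F₁ F₀ = hdeg s := by
    rw [hF₁', hF₀', IntermediateField.relfinrank_map_map, IntermediateField.relfinrank_top_right,
      RatFunc.finrank_eq_max_natDegree]
    rfl
  -- `F₀.map θ = F₁`
  have h3 : F₀.map θ = F₁ := by
    rw [hF₀, fieldRange_ι_eq, IntermediateField.adjoin_map, Set.image_singleton, hθ, D.θ_x]
  have hT' : T = (⊤ : IntermediateField k K).map θ := AlgHom.fieldRange_eq_map _
  have h4 : IntermediateField.relfinrank F₁ T = Module.finrank F₀ K := by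
    rw [← h3, hT', IntermediateField.relfinrank_map_map, IntermediateField.relfinrank_top_right]
  have h10 : F₁ ≤ F₀ := by
    rw [hF₁', hF₀']
    exact IntermediateField.map_mono _ le_top
  have h1T : F₁ ≤ T := by
    rw [← h3, hT']
    exact IntermediateField.map_mono _ le_top
  have h5 := IntermediateField.relfinrank_mul_relfinrank h10 (le_top : F₀ ≤ ⊤)
  have h6 := IntermediateField.relfinrank_mul_relfinrank h1T (le_top : T ≤ ⊤)
  rw [IntermediateField.relfinrank_top_right] at h5 h6
  rw [h2] at h5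
  rw [h4] at h6
  have : Module.finrank F₀ K * Module.finrank T K = Module.finrank F₀ K * hdeg s := by
    rw [h6, ← h5, mul_comm]
  exact Nat.eq_of_mul_eq_mul_left hd this

end GenData

end gendata

end Fermat.Agent.S58.HW.OddPoints
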