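import Fermat.Agent.S58.HW.AddSubSpec
import Fermat.Agent.S58.HW.DegHeight

/-!
# The exact parallelogram law for points whose `x`-coordinates lie in `k(t)`

Scratch (helper12).
-/

set_option autoImplicit false

namespace Fermat.Agent.S58.HW.Parallelogram

open Polynomial WeierstrassCurve WeierstrassCurve.Affine
open Fermat.Agent.S58.HW.DegHeight Fermat.Agent.S58.HW.AddSubSpec

variable {k : Type*} [Field k] (W : WeierstrassCurve k) [W.IsElliptic]
variable {K : Type*} [Field K] [DecidableEq K] (ι : RatFunc k →+* K)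

/-- the symmetric-square coordinates of two points of `ℙ¹`. -/
def sym2 {R : Type*} [CommRing R] (u v : Fin 2 → R) : Fin 3 → R :=
  ![u 0 * v 0, u 0 * v 1 + u 1 * v 0, u 1 * v 1]

lemma sym2_comp {R S : Type*} [CommRing R] [CommRing S] (f : R →+* S) (u v : Fin 2 → R) :
    f ∘ sym2 u v = sym2 (f ∘ u) (f ∘ v) := by
  funext i
  fin_cases i <;> simp [sym2]

omit [DecidableEq K] in
lemma sym2x_eq_sym2 {W' : Affine K} (P Q : W'.Point) : P.sym2x Q = sym2 P.xRep Q.xRep := rfl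

lemma hasHeight_sym2 {u v : Fin 2 → RatFunc k} {m n : ℕ} (hu : HasHeight u m)
    (hv : HasHeight v n) : HasHeight (sym2 u v) (m + n) := by
  have hu' : u = ![u 0, u 1] := by funext i; fin_cases i <;> rfl
  have hv' : v = ![v 0, v 1] := by funext i; fin_cases i <;> rfl
  rw [hu'] at hu
  rw [hv'] at hv
  exact hu.sym2 hv

lemma exists_ne_zero_of_hasHeight {n : ℕ} [NeZero n] {v : Fin n → RatFunc k} {h : ℕ}
    (hv : HasHeight v h) : ∃ i, v i ≠ 0 := by
  obtain ⟨p, c, hc, hp, hvp, -⟩ := hv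
  obtain ⟨i, hi⟩ := exists_coeff_maxDeg_ne_zero hp
  refine ⟨i, ?_⟩
  rw [hvp i]
  refine mul_ne_zero hc ?_
  intro h0
  have : p i = 0 := by
    apply IsFractionRing.injective k[X] (RatFunc k)
    rw [h0, map_zero]
  rw [this] at hi
  simp at hi

/-- **The exact parallelogram law.** -/
theorem parallelogram {WK : WeierstrassCurve K}
    (hWK : WK = (W.map (algebraMap k (RatFunc k))).map ι) {P Q : WK.toAffine.Point}
    {u₁ u₂ u₃ u₄ : Fin 2 → RatFunc k} {h₁ h₂ h₃ h₄ : ℕ}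
    (hP : ι ∘ u₁ = P.xRep) (hQ : ι ∘ u₂ = Q.xRep) (hS : ι ∘ u₃ = (P + Q).xRep)
    (hD : ι ∘ u₄ = (P - Q).xRep)
    (H₁ : HasHeight u₁ h₁) (H₂ : HasHeight u₂ h₂) (H₃ : HasHeight u₃ h₃)
    (H₄ : HasHeight u₄ h₄) : h₃ + h₄ = 2 * (h₁ + h₂) := by
  subst hWK
  obtain ⟨c, hc, hrel⟩ := addSubMap_sym2x P Q
  rw [sym2x_eq_sym2, sym2x_eq_sym2, ← hP, ← hQ, ← hS, ← hD, ← sym2_comp, ← sym2_comp] at hrel
  set W' := W.map (algebraMap k (RatFunc k)) with hW'
  set s₁₂ := sym2 u₁ u₂ with hs₁₂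
  set s₃₄ := sym2 u₃ u₄ with hs₃₄
  have hF : ∀ i, (addSubMap (W'.map ι) i).eval (ι ∘ s₁₂) = ι ((addSubMap W' i).eval s₁₂) := by
    intro i
    rw [addSubMap_map, eval_comp_map]
  have hrel' : ∀ i, ι ((addSubMap W' i).eval s₁₂) = c * ι (s₃₄ i) := by
    intro i
    have := congrFun hrel i
    simp only [Pi.smul_apply, smul_eq_mul, Function.comp_apply] at this
    rw [← this]
    exact (hF i).symm
  have H₃₄ : HasHeight s₃₄ (h₃ + h₄) := hasHeight_sym2 H₃ H₄
  have H₁₂ : HasHeight (fun i => (addSubMap W' i).eval s₁₂) (2 * (h₁ + h₂)) :=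
    (hasHeight_sym2 H₁ H₂).map_addSub W
  obtain ⟨j, hj⟩ := exists_ne_zero_of_hasHeight H₃₄
  have hιj : ι (s₃₄ j) ≠ 0 := (map_ne_zero ι).mpr hj
  set c' : RatFunc k := (addSubMap W' j).eval s₁₂ / s₃₄ j with hc'
  have hcc' : c = ι c' := by
    rw [hc', map_div₀, hrel' j]
    field_simp
  have hc'0 : c' ≠ 0 := by
    intro h0
    apply hc
    rw [hcc', h0, map_zero]
  have heq : (fun i => (addSubMap W' i).eval s₁₂) = c' • s₃₄ := by
    funext i
    apply ι.injective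
    rw [hrel' i, hcc', Pi.smul_apply, smul_eq_mul, map_mul]
  rw [heq] at H₁₂
  exact (H₃₄.smul hc'0).unique H₁₂

end Fermat.Agent.S58.HW.Parallelogram
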